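import Mathlib
import Fermat.Prelude.Def_ModularCurve_PeriodHomPair
import Fermat.Prelude.Thm_Subgroup_IsArithmetic_exists_nat_mem_strictPeriods_conj
import Fermat.Agent.S22.Defs
import Fermat.Agent.S22.Primitive
import Fermat.Agent.S22.PolyZero
import Fermat.Agent.S22.SmallWeight
import Fermat.Agent.S22.Injective

/-!
# S21, analytic block (H), part 1: primitives of weight-2 cusp forms

For a weight-2 cusp form `f` on `Γ₀(N)` we construct the primitive `h58_F f` (holomorphic,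
`1`-periodic, vanishing at `i∞`, with complex derivative `f`) and establish its behaviour under
`SL(2, ℤ)`: equivariance up to constants under `Γ₀(N)`, and cusp expansions at every cusp.
-/

set_option autoImplicit false

namespace Fermat.Agent.S21

open UpperHalfPlane Derivative Filter Topology
open scoped MatrixGroups ModularForm Manifold Real Pointwise

open Fermat.Agent.S22

/-- Weight-zero slash by `SL(2, ℤ)` is composition with the Möbius action. -/
theorem h58_slash_zero (F : ℍ → ℂ) (γ : SL(2, ℤ)) (z : ℍ) : (F ∣[(0 : ℤ)] γ) z = F (γ • z) := by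
  rw [ModularForm.SL_slash_apply]
  simp

/-- `D` of a weight-zero slash. -/
theorem h58_D_slash_zero {F : ℍ → ℂ} (hF : MDiff F) (γ : SL(2, ℤ)) :
    D (F ∣[(0 : ℤ)] γ) = (D F) ∣[(2 : ℤ)] γ := by
  have := bol 0 hF γ
  simpa using this

/-- A holomorphic function on `ℍ` with `D F = 0` is constant. -/
theorem h58_const_of_D_eq_zero {P : ℍ → ℂ} (hP : MDiff P) (h : D P = 0) :
    ∃ c : ℂ, ∀ z, P z = c := by
  obtain ⟨c, hc⟩ := exists_polyFun_of_iterate_D_eq_zero 0 hP (by simpa using h)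
  refine ⟨c 0, fun z => ?_⟩
  rw [hc, polyFun_apply]
  simp

/-- The complex derivative of `P ∘ ofComplex` from the normalised derivative. -/
theorem h58_hasDerivAt_of_D {P g : ℍ → ℂ} (hP : MDiff P)
    (hD : D P = (2 * π * Complex.I)⁻¹ • g) (τ : ℍ) :
    HasDerivAt (P ∘ ofComplex) (g τ) (τ : ℂ) := by
  have hd : DifferentiableAt ℂ (P ∘ ofComplex) (τ : ℂ) := mdifferentiableAt_iff.mp (hP τ)
  have h1 := hd.hasDerivAt
  have h2 : D P τ = (2 * π * Complex.I)⁻¹ * g τ := by rw [hD]; rfl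
  have h3 : (2 * (π : ℂ) * I) ≠ 0 := by
    simp [Real.pi_ne_zero, Complex.I_ne_zero]
  have h4 : deriv (P ∘ ofComplex) (τ : ℂ) = g τ := by
    have : (2 * π * Complex.I)⁻¹ * deriv (P ∘ ofComplex) (τ : ℂ) = (2 * π * Complex.I)⁻¹ * g τ := h2
    exact mul_left_cancel₀ (inv_ne_zero h3) this
  rwa [h4] at h1

/-- The normalised derivative from the complex derivative. -/
theorem h58_D_of_hasDerivAt {P g : ℍ → ℂ}
    (h : ∀ τ : ℍ, HasDerivAt (P ∘ ofComplex) (g τ) (τ : ℂ)) :
    MDiff P ∧ D P = (2 * π * Complex.I)⁻¹ • g := by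
  refine ⟨fun τ => mdifferentiableAt_iff.mpr (h τ).differentiableAt, ?_⟩
  funext τ
  show (2 * π * Complex.I)⁻¹ * deriv (P ∘ ofComplex) (τ : ℂ) = (2 * π * Complex.I)⁻¹ * g τ
  rw [(h τ).deriv]

/-- Existence of a cuspidal periodic primitive (complex derivative normalisation). -/
theorem h58_exists_prim {h : ℝ} (hh : 0 < h) {g : ℍ → ℂ} (hg : IsCuspPer h g) :
    ∃ P : ℍ → ℂ, IsCuspPer h P ∧ D P = (2 * π * Complex.I)⁻¹ • g := by
  obtain ⟨G, hG, hDG⟩ := hg.exists_primitive hh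
  refine ⟨(2 * π * Complex.I)⁻¹ • G, hG.smul _, ?_⟩
  rw [normalizedDerivOfComplex_smul _ _ hG.mdiff, hDG]

/-- Two primitives which both vanish at `i∞` coincide. -/
theorem h58_prim_unique {P Q g : ℍ → ℂ}
    (hP : ∀ τ : ℍ, HasDerivAt (P ∘ ofComplex) (g τ) (τ : ℂ))
    (hQ : ∀ τ : ℍ, HasDerivAt (Q ∘ ofComplex) (g τ) (τ : ℂ))
    (hP0 : Tendsto P atImInfty (𝓝 0)) (hQ0 : Tendsto Q atImInfty (𝓝 0)) : P = Q := by
  obtain ⟨hPm, hPD⟩ := h58_D_of_hasDerivAt hP
  obtain ⟨hQm, hQD⟩ := h58_D_of_hasDerivAt hQ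
  have hD : D (P - Q) = 0 := by
    rw [normalizedDerivOfComplex_sub _ _ hPm hQm, hPD, hQD, sub_self]
  obtain ⟨c, hc⟩ := h58_const_of_D_eq_zero (hPm.sub hQm) hD
  have h1 : Tendsto (P - Q) atImInfty (𝓝 (0 - 0)) := hP0.sub hQ0
  have h2 : Tendsto (P - Q) atImInfty (𝓝 c) := by
    have : (P - Q) = fun _ => c := funext hc
    rw [this]; exact tendsto_const_nhds
  have hc0 : c = 0 := by
    have := tendsto_nhds_unique h2 h1
    simpa using this
  funext z
  have := hc z
  rw [hc0] at this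
  exact sub_eq_zero.mp this


/-! ### The primitive of a weight-2 cusp form -/

variable {N : ℕ} [NeZero N]

/-- The canonical primitive of a weight-2 cusp form: holomorphic, `1`-periodic, zero at `i∞`. -/
noncomputable def h58_F (f : CuspForm (CongruenceSubgroup.Gamma0 N) 2) : ℍ → ℂ :=
  (h58_exists_prim one_pos (isCuspPer_of_cuspForm f)).choose

theorem h58_F_isCuspPer (f : CuspForm (CongruenceSubgroup.Gamma0 N) 2) :
    IsCuspPer 1 (h58_F f) :=
  (h58_exists_prim one_pos (isCuspPer_of_cuspForm f)).choose_spec.1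

theorem h58_F_D (f : CuspForm (CongruenceSubgroup.Gamma0 N) 2) :
    D (h58_F f) = (2 * π * Complex.I)⁻¹ • ⇑f :=
  (h58_exists_prim one_pos (isCuspPer_of_cuspForm f)).choose_spec.2

theorem h58_F_mdiff (f : CuspForm (CongruenceSubgroup.Gamma0 N) 2) : MDiff (h58_F f) :=
  (h58_F_isCuspPer f).mdiff

theorem h58_F_hasDerivAt (f : CuspForm (CongruenceSubgroup.Gamma0 N) 2) (τ : ℍ) :
    HasDerivAt (h58_F f ∘ ofComplex) (f τ) (τ : ℂ) :=
  h58_hasDerivAt_of_D (h58_F_mdiff f) (h58_F_D f) τ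

theorem h58_F_tendsto (f : CuspForm (CongruenceSubgroup.Gamma0 N) 2) :
    Tendsto (h58_F f) atImInfty (𝓝 0) :=
  (h58_F_isCuspPer f).zero

/-- Slash of a scalar multiple (pointwise, `SL(2, ℤ)`). -/
theorem h58_smul_slash (k : ℤ) (c : ℂ) (g : ℍ → ℂ) (γ : SL(2, ℤ)) :
    (c • g) ∣[k] γ = c • (g ∣[k] γ) := by
  funext z
  simp only [ModularForm.SL_slash_apply, Pi.smul_apply, smul_eq_mul]
  ring

/-- Equivariance of the primitive under `Γ₀(N)`, up to additive constants. -/
theorem h58_F_equivariant (f : CuspForm (CongruenceSubgroup.Gamma0 N) 2) (γ : SL(2, ℤ))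
    (hγ : γ ∈ CongruenceSubgroup.Gamma0 N) :
    ∃ c : ℂ, ∀ z : ℍ, h58_F f (γ • z) - h58_F f z = c := by
  have hF := h58_F_mdiff f
  have hFγ : MDiff (h58_F f ∣[(0 : ℤ)] γ) := hF.slash _ _
  have hinv : ⇑f ∣[(2 : ℤ)] γ = ⇑f :=
    SlashInvariantFormClass.slash_action_eq f _ ⟨γ, hγ, rfl⟩
  have hD : D (h58_F f ∣[(0 : ℤ)] γ - h58_F f) = 0 := by
    rw [normalizedDerivOfComplex_sub _ _ hFγ hF, h58_D_slash_zero hF, h58_F_D, h58_smul_slash,
      hinv, sub_self]
  obtain ⟨c, hc⟩ := h58_const_of_D_eq_zero (hFγ.sub hF) hD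
  refine ⟨c, fun z => ?_⟩
  have := hc z
  rwa [Pi.sub_apply, h58_slash_zero] at this

/-- `H` has a cuspidal `M`-periodic expansion (up to an additive constant) at every cusp. -/
def h58_CuspReg (M : ℝ) (H : ℍ → ℂ) : Prop :=
  ∀ δ : SL(2, ℤ), ∃ (c : ℂ) (G : ℍ → ℂ), IsCuspPer M G ∧ ∀ z : ℍ, H (δ • z) = G z + c

/-- A uniform period for all `SL(2, ℤ)`-translates of cusp forms on `Γ₀(N)`. -/
theorem h58_exists_period (N : ℕ) [NeZero N] : ∃ M : ℕ, 0 < M ∧
    ∀ γ : SL(2, ℤ), (M : ℝ) ∈ (ConjAct.toConjAct (Matrix.SpecialLinearGroup.mapGL ℝ γ) •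
      (CongruenceSubgroup.Gamma0 N : Subgroup (GL (Fin 2) ℝ))).strictPeriods :=
  Subgroup.IsArithmetic.exists_nat_mem_strictPeriods_conj
    (CongruenceSubgroup.Gamma0 N : Subgroup (GL (Fin 2) ℝ))

/-- The chosen uniform period. -/
noncomputable def h58_M (N : ℕ) [NeZero N] : ℕ := (h58_exists_period N).choose

theorem h58_M_pos (N : ℕ) [NeZero N] : 0 < h58_M N := (h58_exists_period N).choose_spec.1

theorem h58_M_pos' (N : ℕ) [NeZero N] : (0 : ℝ) < (h58_M N : ℝ) := by
  exact_mod_cast h58_M_pos N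

theorem h58_M_spec (N : ℕ) [NeZero N] (γ : SL(2, ℤ)) :
    (h58_M N : ℝ) ∈ (ConjAct.toConjAct (Matrix.SpecialLinearGroup.mapGL ℝ γ) •
      (CongruenceSubgroup.Gamma0 N : Subgroup (GL (Fin 2) ℝ))).strictPeriods :=
  (h58_exists_period N).choose_spec.2 γ

/-- The primitive of a cusp form is cusp-regular. -/
theorem h58_F_cuspReg (f : CuspForm (CongruenceSubgroup.Gamma0 N) 2) :
    h58_CuspReg (h58_M N) (h58_F f) := by
  intro σ
  have hfσ : IsCuspPer (h58_M N) (⇑f ∣[(2 : ℤ)] σ) :=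
    injective_isCuspPer_slash f (h58_M_spec N) σ
  obtain ⟨G, hG, hDG⟩ := h58_exists_prim (h58_M_pos' N) hfσ
  have hF := h58_F_mdiff f
  have hFσ : MDiff (h58_F f ∣[(0 : ℤ)] σ) := hF.slash _ _
  have hD : D (h58_F f ∣[(0 : ℤ)] σ - G) = 0 := by
    rw [normalizedDerivOfComplex_sub _ _ hFσ hG.mdiff, h58_D_slash_zero hF, h58_F_D,
      h58_smul_slash, hDG, sub_self]
  obtain ⟨c, hc⟩ := h58_const_of_D_eq_zero (hFσ.sub hG.mdiff) hD
  refine ⟨c, G, hG, fun z => ?_⟩
  have := hc z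
  rw [Pi.sub_apply, h58_slash_zero] at this
  linear_combination this

/-- Limits at all cusps for cusp-regular functions. -/
theorem h58_CuspReg.tendsto {M : ℝ} {H : ℍ → ℂ} (hH : h58_CuspReg M H) (δ : SL(2, ℤ)) :
    ∃ L : ℂ, Tendsto (fun w : ℍ => H (δ • w)) atImInfty (𝓝 L) := by
  obtain ⟨c, G, hG, hGc⟩ := hH δ
  refine ⟨c, ?_⟩
  have h0 : Tendsto G atImInfty (𝓝 0) := hG.zero
  have h1 : Tendsto (fun w : ℍ => G w + c) atImInfty (𝓝 (0 + c)) :=
    h0.add tendsto_const_nhds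
  rw [zero_add] at h1
  exact h1.congr fun w => (hGc w).symm

/-- **(H1)** every weight-2 cusp form on `Γ₀(N)` has an equivariant primitive. -/
theorem h58_hasEquivariantPrimitive' (f : CuspForm (CongruenceSubgroup.Gamma0 N) 2) :
    ModularCurve.HasEquivariantPrimitive N f (h58_F f) :=
  ⟨h58_F_hasDerivAt f, h58_F_tendsto f, fun γ => h58_F_equivariant f γ γ.2,
    fun δ => (h58_F_cuspReg f).tendsto δ⟩

theorem h58_hasEquivariantPrimitive (f : CuspForm (CongruenceSubgroup.Gamma0 N) 2) :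
    ∃ F : ℍ → ℂ, ModularCurve.HasEquivariantPrimitive N f F :=
  ⟨_, h58_hasEquivariantPrimitive' f⟩

/-- Uniqueness of the equivariant primitive. -/
theorem h58_eq_F {f : CuspForm (CongruenceSubgroup.Gamma0 N) 2} {F' : ℍ → ℂ}
    (h : ModularCurve.HasEquivariantPrimitive N f F') : F' = h58_F f :=
  h58_prim_unique h.1 (h58_F_hasDerivAt f) h.2.1 (h58_F_tendsto f)

/-- The period map in terms of the canonical primitive (any base point). -/
theorem h58_periodMap_apply (f : CuspForm (CongruenceSubgroup.Gamma0 N) 2)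
    (γ : CongruenceSubgroup.Gamma0 N) (z : ℍ) :
    ModularCurve.periodMap N f (Additive.ofMul γ)
      = h58_F f ((γ : SL(2, ℤ)) • z) - h58_F f z := by
  obtain ⟨F₀, h₀, hp⟩ := ModularCurve.periodMap_def N f (h58_hasEquivariantPrimitive' f)
  have hF₀ : F₀ = h58_F f := h58_eq_F h₀
  subst hF₀
  rw [hp, ModularCurve.Period.IsEquivariantPrimitive.periodHom_apply,
    ← ModularCurve.Period.IsEquivariantPrimitive.sub_eq_period h₀.2.2.1 γ z]

theorem h58_F_add (f g : CuspForm (CongruenceSubgroup.Gamma0 N) 2) :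
    h58_F (f + g) = h58_F f + h58_F g := by
  symm
  refine h58_prim_unique (fun τ => ?_) (h58_F_hasDerivAt (f + g)) ?_ (h58_F_tendsto (f + g))
  · have := (h58_F_hasDerivAt f τ).add (h58_F_hasDerivAt g τ)
    exact this
  · have := (h58_F_tendsto f).add (h58_F_tendsto g)
    rw [add_zero] at this
    exact this

theorem h58_F_smul (c : ℂ) (f : CuspForm (CongruenceSubgroup.Gamma0 N) 2) :
    h58_F (c • f) = c • h58_F f := by
  symm
  refine h58_prim_unique (fun τ => ?_) (h58_F_hasDerivAt (c • f)) ?_ (h58_F_tendsto (c • f))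
  · have := (h58_F_hasDerivAt f τ).const_mul c
    exact this
  · have := (h58_F_tendsto f).const_mul c
    rw [mul_zero] at this
    exact this

/-- The period map as a linear map. -/
noncomputable def h58_pml (N : ℕ) [NeZero N] :
    CuspForm (CongruenceSubgroup.Gamma0 N) 2 →ₗ[ℂ]
      (Additive (CongruenceSubgroup.Gamma0 N) →+ ℂ) where
  toFun f := ModularCurve.periodMap N f
  map_add' f g := by
    refine AddMonoidHom.ext fun γ => ?_
    have e1 := h58_periodMap_apply (f + g) (Additive.toMul γ) UpperHalfPlane.I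
    have e2 := h58_periodMap_apply f (Additive.toMul γ) UpperHalfPlane.I
    have e3 := h58_periodMap_apply g (Additive.toMul γ) UpperHalfPlane.I
    simp only [ofMul_toMul] at e1 e2 e3
    rw [AddMonoidHom.add_apply, e1, e2, e3, h58_F_add]
    simp only [Pi.add_apply]
    ring
  map_smul' c f := by
    refine AddMonoidHom.ext fun γ => ?_
    have e1 := h58_periodMap_apply (c • f) (Additive.toMul γ) UpperHalfPlane.I
    have e2 := h58_periodMap_apply f (Additive.toMul γ) UpperHalfPlane.I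
    simp only [ofMul_toMul] at e1 e2
    rw [RingHom.id_apply, AddMonoidHom.smul_apply, e1, e2, h58_F_smul]
    simp only [Pi.smul_apply, smul_eq_mul]
    ring

@[simp] theorem h58_pml_apply (f : CuspForm (CongruenceSubgroup.Gamma0 N) 2) :
    h58_pml N f = ModularCurve.periodMap N f := rfl

/-- **(H2)** the period map is linear. -/
theorem h58_existsPeriodMapLinear (N : ℕ) [NeZero N] : ModularCurve.ExistsPeriodMapLinear N :=
  ⟨h58_pml N, fun _ => rfl⟩

end Fermat.Agent.S21
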