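import Mathlib
import Fermat.Prelude.Def_ModularCurve_PeriodHomPair
import Fermat.Agent.S21.h58_Prim

/-!
# S21, analytic block (H), part 2: periods of parabolic elements vanish

`periodMap N f` kills every element of trace `±2`, hence the range of `periodHomPair N`
is contained in the parabolic homomorphisms.
-/

set_option autoImplicit false

namespace Fermat.Agent.S21

open UpperHalfPlane Derivative Filter Topology
open scoped MatrixGroups ModularForm Manifold Real

open Fermat.Agent.S22

/-- An element of `SL(2, ℤ)` of trace `±2` is conjugate to an upper triangular matrix. -/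
theorem h58_exists_conj_upper (γ : SL(2, ℤ))
    (h : (γ : Matrix (Fin 2) (Fin 2) ℤ).trace ^ 2 = 4) :
    ∃ δ : SL(2, ℤ), (δ⁻¹ * γ * δ) 1 0 = 0 := by
  have hdet := γ.det_coe
  rw [Matrix.det_fin_two] at hdet
  rw [Matrix.trace_fin_two] at h
  set a := γ 0 0 with ha
  set b := γ 0 1 with hb
  set c := γ 1 0 with hc
  set d := γ 1 1 with hd
  -- the entry formula
  have key : ∀ δ : SL(2, ℤ), (δ⁻¹ * γ * δ) 1 0
      = c * δ 0 0 ^ 2 + (d - a) * δ 0 0 * δ 1 0 - b * δ 1 0 ^ 2 := by
    intro δ
    simp only [Matrix.SpecialLinearGroup.coe_mul, Matrix.SpecialLinearGroup.coe_inv,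
      Matrix.adjugate_fin_two, Matrix.mul_apply, Fin.sum_univ_two, Matrix.of_apply,
      Matrix.cons_val_zero, Matrix.cons_val_one, Matrix.cons_val', Matrix.cons_val_fin_one]
    ring
  by_cases hc0 : c = 0
  · refine ⟨1, ?_⟩
    rw [key]
    simp [hc0]
  · -- eigenvalue ε with a + d = 2 ε
    obtain ⟨ε, hε, hsum⟩ : ∃ ε : ℤ, ε ^ 2 = 1 ∧ a + d = 2 * ε := by
      have h' : (a + d - 2) * (a + d + 2) = 0 := by ring_nf; ring_nf at h; omega
      rcases mul_eq_zero.mp h' with h1 | h1
      · exact ⟨1, by norm_num, by omega⟩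
      · exact ⟨-1, by norm_num, by omega⟩
    set x : ℤ := ε - d with hx
    have hcop : IsCoprime (x / (Int.gcd x c : ℤ)) (c / (Int.gcd x c : ℤ)) := by
      rw [Int.isCoprime_iff_gcd_eq_one]
      exact Int.gcd_div_gcd_div_gcd (Int.gcd_pos_of_ne_zero_right x hc0)
    obtain ⟨δ, hδ0, hδ1⟩ := hcop.exists_SL2_col 0
    refine ⟨δ, ?_⟩
    rw [key, hδ0, hδ1]
    set g : ℤ := (Int.gcd x c : ℤ) with hg
    have hg0 : g ≠ 0 := by
      have := Int.gcd_pos_of_ne_zero_right x hc0
      rw [hg]; exact_mod_cast this.ne'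
    obtain ⟨p, hp⟩ : g ∣ x := Int.gcd_dvd_left x c
    obtain ⟨q, hq⟩ : g ∣ c := Int.gcd_dvd_right x c
    have hxg : x / g = p := by rw [hp, Int.mul_ediv_cancel_left _ hg0]
    have hcg : c / g = q := by rw [hq, Int.mul_ediv_cancel_left _ hg0]
    rw [hxg, hcg]
    have hmain : g ^ 2 * (c * p ^ 2 + (d - a) * p * q - b * q ^ 2) = 0 := by
      have e1 : g ^ 2 * (c * p ^ 2 + (d - a) * p * q - b * q ^ 2)
          = c * (g * p) ^ 2 + (d - a) * (g * p) * (g * q) - b * (g * q) ^ 2 := by ring
      rw [e1, ← hp, ← hq, hx]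
      have e2 : c * (ε - d) ^ 2 + (d - a) * (ε - d) * c - b * c ^ 2
          = c * (ε ^ 2 - (a + d) * ε + (a * d - b * c)) := by ring
      rw [e2, hε, hsum, hdet]
      have : (1 : ℤ) - 2 * ε * ε + 1 = 2 - 2 * ε ^ 2 := by ring
      rw [this, hε]; ring
    rcases mul_eq_zero.mp hmain with h1 | h1
    · exact absurd (pow_eq_zero_iff (two_ne_zero)|>.mp h1) hg0
    · exact h1

variable {N : ℕ} [NeZero N]

/-- Periods of trace-`±2` elements vanish. -/
theorem h58_periodMap_parabolic (f : CuspForm (CongruenceSubgroup.Gamma0 N) 2)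
    (γ : CongruenceSubgroup.Gamma0 N)
    (h : ((γ : SL(2, ℤ)) : Matrix (Fin 2) (Fin 2) ℤ).trace ^ 2 = 4) :
    ModularCurve.periodMap N f (Additive.ofMul γ) = 0 := by
  obtain ⟨δ, hδ⟩ := h58_exists_conj_upper (γ : SL(2, ℤ)) h
  obtain ⟨n, hn⟩ := ModularGroup.exists_eq_T_zpow_of_c_eq_zero hδ
  obtain ⟨c, G, hG, hGc⟩ := h58_F_cuspReg f δ
  -- the period, evaluated at `δ • w`
  have hper : ∀ w : ℍ, ModularCurve.periodMap N f (Additive.ofMul γ)
      = G (ModularGroup.T ^ n • w) - G w := by
    intro w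
    rw [h58_periodMap_apply f γ (δ • w)]
    have e : (γ : SL(2, ℤ)) • (δ • w) = δ • (ModularGroup.T ^ n • w) := by
      rw [← hn w, ← mul_smul, ← mul_smul]
      congr 1
      group
    rw [e, hGc, hGc]
    ring
  have hG0 : Tendsto G atImInfty (𝓝 0) := hG.zero
  have hT : Tendsto (fun w : ℍ => ModularGroup.T ^ n • w) atImInfty atImInfty := by
    rw [atImInfty, tendsto_comap_iff]
    have : (UpperHalfPlane.im ∘ fun w : ℍ => ModularGroup.T ^ n • w) = UpperHalfPlane.im := by
      funext w
      exact ModularGroup.im_T_zpow_smul w n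
    rw [this]
    exact tendsto_comap
  have h1 : Tendsto (fun w : ℍ => G (ModularGroup.T ^ n • w) - G w) atImInfty (𝓝 (0 - 0)) :=
    (hG0.comp hT).sub hG0
  have h2 : Tendsto (fun w : ℍ => G (ModularGroup.T ^ n • w) - G w) atImInfty
      (𝓝 (ModularCurve.periodMap N f (Additive.ofMul γ))) := by
    have : (fun w : ℍ => G (ModularGroup.T ^ n • w) - G w)
        = fun _ => ModularCurve.periodMap N f (Additive.ofMul γ) := by
      funext w; exact (hper w).symm
    rw [this]; exact tendsto_const_nhds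
  have := tendsto_nhds_unique h2 h1
  simpa using this

theorem h58_periodMap_mem_parabolicHoms (f : CuspForm (CongruenceSubgroup.Gamma0 N) 2) :
    ModularCurve.periodMap N f
      ∈ ModularCurve.Period.parabolicHoms ℂ (CongruenceSubgroup.Gamma0 N) ℂ :=
  fun γ hγ => h58_periodMap_parabolic f γ hγ

/-- Explicit formula for the period pairing. -/
theorem h58_periodHomPair_apply (f g : CuspForm (CongruenceSubgroup.Gamma0 N) 2) :
    ModularCurve.periodHomPair N (f, g)
      = (ModularCurve.periodMap N f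
          + ModularCurve.Period.charInvolution N ℂ ℂ (ModularCurve.periodMap N f))
        + (ModularCurve.periodMap N g
          - ModularCurve.Period.charInvolution N ℂ ℂ (ModularCurve.periodMap N g)) := by
  obtain ⟨pml, hpml, hp⟩ := ModularCurve.periodHomPair_def N (h58_existsPeriodMapLinear N)
  rw [hp]
  simp only [LinearMap.coprod_apply, LinearMap.coe_comp, Function.comp_apply, LinearMap.add_apply,
    LinearMap.sub_apply, LinearMap.id_coe, id_eq, hpml]

/-- **(H3)** the range of the period pairing consists of parabolic homomorphisms. -/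
theorem h58_range_periodHomPair_le (N : ℕ) [NeZero N] :
    LinearMap.range (ModularCurve.periodHomPair N)
      ≤ ModularCurve.Period.parabolicHoms ℂ (CongruenceSubgroup.Gamma0 N) ℂ := by
  rintro _ ⟨⟨f, g⟩, rfl⟩
  rw [h58_periodHomPair_apply]
  have hf := h58_periodMap_mem_parabolicHoms f
  have hg := h58_periodMap_mem_parabolicHoms g
  exact Submodule.add_mem _
    (Submodule.add_mem _ hf (ModularCurve.Period.charInvolution_mem_parabolicHoms N ℂ ℂ hf))
    (Submodule.sub_mem _ hg (ModularCurve.Period.charInvolution_mem_parabolicHoms N ℂ ℂ hg))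

end Fermat.Agent.S21
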