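import Mathlib
import Fermat.Prelude.Def_ModularCurve_PeriodHomPair

set_option autoImplicit false

namespace Fermat.Agent.S21

open UpperHalfPlane Complex Filter Function Metric Set
open scoped MatrixGroups Topology Manifold Real

/-- Translation by a real number, read through `ofComplex`. -/
theorem h20_periodic_comp_ofComplex (f : ℍ → ℂ) (M : ℝ)
    (hper : ∀ w : ℍ, f (M +ᵥ w) = f w) : Periodic (f ∘ ofComplex) M := by
  intro w
  by_cases hw : 0 < im w
  · have hw' : 0 < im (w + M) := by simp [hw]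
    simp only [comp_apply, ofComplex_apply_of_im_pos hw', ofComplex_apply_of_im_pos hw]
    rw [← hper ⟨w, hw⟩]
    congr 1
    ext
    simp [add_comm]
  · have hw' : im (w + M) ≤ 0 := by simpa using hw
    simp [ofComplex_apply_of_im_nonpos hw', ofComplex_apply_of_im_nonpos (not_lt.mp hw)]

/-- **Maximum principle on a modular curve.** A holomorphic function on the upper half-plane
whose absolute value is invariant under a finite-index subgroup of `SL(2, ℤ)`, and all of whose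
`SL(2, ℤ)`-translates are periodic and bounded at infinity, is constant. -/
theorem h20_const_of_norm_invariant (Γ : Subgroup SL(2, ℤ)) [Γ.FiniteIndex] (E : ℍ → ℂ)
    (hE : MDiff E) (M : ℝ) (hM : 0 < M)
    (hinv : ∀ γ ∈ Γ, ∀ z : ℍ, ‖E (γ • z)‖ = ‖E z‖)
    (hper : ∀ (δ : SL(2, ℤ)) (w : ℍ), E (δ • (M +ᵥ w)) = E (δ • w))
    (hbdd : ∀ δ : SL(2, ℤ), IsBoundedAtImInfty (fun w : ℍ => E (δ • w))) :
    ∃ c : ℂ, ∀ z, E z = c := by
  classical
  have hEd_hol : ∀ δ : SL(2, ℤ), MDiff (fun w : ℍ => E (δ • w)) := by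
    intro δ
    have h1 : MDiff (fun τ : ℍ => (δ : GL (Fin 2) ℝ) • τ) :=
      mdifferentiable_smul (by simp)
    exact hE.comp h1
  have hEd_per : ∀ δ : SL(2, ℤ), Periodic ((fun w : ℍ => E (δ • w)) ∘ ofComplex) M :=
    fun δ => h20_periodic_comp_ofComplex _ M (hper δ)
  let Φ : SL(2, ℤ) → ℂ → ℂ := fun δ => cuspFunction M (fun w : ℍ => E (δ • w))
  have hΦ_diff : ∀ δ, DifferentiableOn ℂ (Φ δ) (ball 0 1) := fun δ =>
    differentiableOn_cuspFunction_ball hM (hEd_per δ) (hEd_hol δ) (hbdd δ)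
  have hΦ_eq : ∀ δ (w : ℍ), Φ δ (Periodic.qParam M w) = E (δ • w) := fun δ w =>
    eq_cuspFunction w hM.ne' (hEd_per δ)
  -- coset representatives
  let s : SL(2, ℤ) ⧸ Γ → SL(2, ℤ) := fun x => (x.out)⁻¹
  have hs : ∀ σ : SL(2, ℤ), ∃ g ∈ Γ, ∃ x, σ = g * s x := by
    intro σ
    obtain ⟨h, hh⟩ := QuotientGroup.mk_out_eq_mul Γ σ⁻¹
    refine ⟨(h : SL(2, ℤ)), h.2, QuotientGroup.mk σ⁻¹, ?_⟩
    show σ = (h : SL(2, ℤ)) * ((QuotientGroup.mk σ⁻¹ : SL(2, ℤ) ⧸ Γ).out)⁻¹
    rw [hh]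
    group
  set r : ℝ := Real.exp (-π / M) with hr
  have hr0 : 0 ≤ r := (Real.exp_pos _).le
  have hr1 : r < 1 := by
    rw [hr, Real.exp_lt_one_iff]
    exact div_neg_of_neg_of_pos (neg_lt_zero.mpr Real.pi_pos) hM
  have hmax : ∀ x : SL(2, ℤ) ⧸ Γ, ∃ q ∈ closedBall (0 : ℂ) r,
      IsMaxOn (norm ∘ Φ (s x)) (closedBall 0 r) q := fun x =>
    (isCompact_closedBall (0 : ℂ) r).exists_isMaxOn (nonempty_closedBall.mpr hr0)
      ((hΦ_diff (s x)).continuousOn.mono (closedBall_subset_ball hr1)).norm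
  choose qx hqx_mem hqx_max using hmax
  obtain ⟨x₀, hx₀⟩ := Finite.exists_max (fun x => ‖Φ (s x) (qx x)‖)
  have hkey : ∀ z : ℍ, ‖E z‖ ≤ ‖Φ (s x₀) (qx x₀)‖ := by
    intro z
    obtain ⟨γ, hγ⟩ := ModularGroup.exists_one_half_le_im_smul z
    obtain ⟨g, hg, x, hx⟩ := hs γ⁻¹
    have hz : z = g • (s x • (γ • z)) := by
      rw [← mul_smul, ← mul_smul, ← hx, inv_mul_cancel, one_smul]
    have h1 : ‖E z‖ = ‖Φ (s x) (Periodic.qParam M (γ • z : ℍ))‖ := by
      rw [hΦ_eq, ← hinv g hg (s x • (γ • z)), ← hz]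
    rw [h1]
    refine le_trans (hqx_max x ?_) (hx₀ x)
    rw [mem_closedBall_zero_iff, Periodic.norm_qParam, hr]
    apply Real.exp_le_exp.mpr
    rw [div_le_div_iff_of_pos_right hM]
    have : (1 : ℝ) / 2 ≤ ((γ • z : ℍ) : ℂ).im := hγ
    nlinarith [Real.pi_pos]
  have hconst : EqOn (Φ (s x₀)) (const ℂ (Φ (s x₀) (qx x₀))) (ball 0 1) := by
    apply Complex.eq_const_of_exists_max (hΦ_diff (s x₀))
      (closedBall_subset_ball hr1 (hqx_mem x₀))
    intro q hq
    show ‖Φ (s x₀) q‖ ≤ ‖Φ (s x₀) (qx x₀)‖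
    rcases eq_or_ne q 0 with rfl | hq0
    · exact hqx_max x₀ (mem_closedBall_self hr0)
    · have him := Periodic.im_invQParam_pos_of_norm_lt_one hM (mem_ball_zero_iff.mp hq) hq0
      have h2 := hΦ_eq (s x₀) ⟨_, him⟩
      rw [show Periodic.qParam M ((⟨_, him⟩ : ℍ) : ℂ) = q from
        Periodic.qParam_right_inv hM.ne' hq0] at h2
      rw [h2]
      exact hkey _
  refine ⟨Φ (s x₀) (qx x₀), fun z => ?_⟩
  have hw := hΦ_eq (s x₀) ((s x₀)⁻¹ • z)
  rw [smul_inv_smul] at hw
  rw [← hw]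
  exact hconst (by
    rw [mem_ball_zero_iff]
    exact Periodic.norm_qParam_lt_one hM (im_pos _))

section Reflection

open ModularCurve ModularCurve.Period CongruenceSubgroup

/-- The reflection `z ↦ -conj z` of the upper half-plane. -/
noncomputable def h20_refl (z : ℍ) : ℍ :=
  ⟨-(starRingEnd ℂ) (z : ℂ), by simpa using z.im_pos⟩

@[simp] theorem h20_refl_coe (z : ℍ) :
    ((h20_refl z : ℍ) : ℂ) = -(starRingEnd ℂ) (z : ℂ) := rfl

@[simp] theorem h20_refl_refl (z : ℍ) : h20_refl (h20_refl z) = z := by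
  ext
  simp

@[simp] theorem h20_refl_im (z : ℍ) : (h20_refl z).im = z.im := by
  show (-(starRingEnd ℂ) (z : ℂ)).im = _
  simp

theorem h20_tendsto_refl : Tendsto h20_refl atImInfty atImInfty := by
  simp only [atImInfty, tendsto_comap_iff, Function.comp_def, h20_refl_im]
  exact tendsto_comap

theorem h20_tendsto_vadd (a : ℝ) : Tendsto (fun w : ℍ => a +ᵥ w) atImInfty atImInfty := by
  simp only [atImInfty, tendsto_comap_iff, Function.comp_def, vadd_im]
  exact tendsto_comap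

theorem h20_refl_vadd (a : ℝ) (w : ℍ) : h20_refl (a +ᵥ w) = (-a) +ᵥ h20_refl w := by
  ext
  simp
  ring

theorem h20_jConj_smul_refl (A : SL(2, ℤ)) (z : ℍ) :
    jConjSL A • h20_refl z = h20_refl (A • z) := by
  ext
  rw [coe_specialLinearGroup_apply, h20_refl_coe, h20_refl_coe, coe_specialLinearGroup_apply]
  simp only [jConjSL_coe, jConjMat_apply_zero_zero, jConjMat_apply_zero_one,
    jConjMat_apply_one_zero, jConjMat_apply_one_one, map_div₀, map_add, map_mul,
    algebraMap_int_eq, Int.coe_castRingHom, Int.cast_neg,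
    Complex.ofReal_neg, Complex.ofReal_intCast, map_intCast]
  ring

/-- Derivative of the reflected conjugate of a primitive. -/
theorem h20_hasDerivAt_conj_refl {F : ℍ → ℂ} {f : ℍ → ℂ}
    (hF : ∀ τ : ℍ, HasDerivAt (F ∘ ofComplex) (f τ) τ) (τ : ℍ) :
    HasDerivAt ((fun z : ℍ => (starRingEnd ℂ) (F (h20_refl z))) ∘ ofComplex)
      (-(starRingEnd ℂ) (f (h20_refl τ))) τ := by
  have h0 : HasDerivAt (F ∘ ofComplex) (f (h20_refl τ)) (-(starRingEnd ℂ) (τ : ℂ)) :=
    hF (h20_refl τ)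
  have h1 : HasDerivAt (fun u : ℂ => (F ∘ ofComplex) (-u)) (f (h20_refl τ) * (-1))
      ((starRingEnd ℂ) (τ : ℂ)) :=
    HasDerivAt.comp ((starRingEnd ℂ) (τ : ℂ)) h0 (hasDerivAt_neg _)
  rw [mul_neg, mul_one] at h1
  have h2 := h1.conj_conj
  rw [Complex.conj_conj, map_neg] at h2
  refine h2.congr_of_eventuallyEq ?_
  have hopen : IsOpen {w : ℂ | 0 < w.im} := isOpen_lt continuous_const Complex.continuous_im
  filter_upwards [hopen.mem_nhds τ.im_pos] with w hw
  have hw' : 0 < (-(starRingEnd ℂ) w).im := by simpa using hw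
  simp only [Function.comp_apply, ofComplex_apply_of_im_pos hw, ofComplex_apply_of_im_pos hw']
  rfl

/-- The translates of an equivariant primitive with cusp limits are periodic. -/
theorem h20_primitive_periodic (N : ℕ) [NeZero N] (f : CuspForm (Gamma0 N) 2) (F : ℍ → ℂ)
    (hF : HasEquivariantPrimitive N f F) (δ : SL(2, ℤ)) (w : ℍ) :
    F (δ • ((N : ℝ) +ᵥ w)) = F (δ • w) := by
  obtain ⟨-, -, hequiv, hcusp⟩ := hF
  have hγ : δ * ModularGroup.T ^ (N : ℤ) * δ⁻¹ ∈ Gamma0 N := by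
    have hT : ModularGroup.T ^ (N : ℤ) ∈ CongruenceSubgroup.Gamma N := by
      rw [CongruenceSubgroup.Gamma_mem, ModularGroup.coe_T_zpow]
      simp
    have h1 := (CongruenceSubgroup.Gamma_normal N).conj_mem _ hT δ
    rw [CongruenceSubgroup.Gamma_mem] at h1
    rw [Gamma0_mem]
    exact h1.2.2.1
  obtain ⟨c, hc⟩ := hequiv ⟨_, hγ⟩
  obtain ⟨L, hL⟩ := hcusp δ
  have h1 : ∀ w : ℍ, F (δ • ((N : ℝ) +ᵥ w)) - F (δ • w) = c := by
    intro w
    rw [← hc (δ • w)]
    congr 2
    show δ • ((N : ℝ) +ᵥ w) = (δ * ModularGroup.T ^ (N : ℤ) * δ⁻¹) • (δ • w)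
    rw [mul_smul, mul_smul, inv_smul_smul, modular_T_zpow_smul]
    simp
  have h2 : Tendsto (fun w : ℍ => F (δ • ((N : ℝ) +ᵥ w)) - F (δ • w)) atImInfty
      (𝓝 (L - L)) :=
    Tendsto.sub (hL.comp (h20_tendsto_vadd (N : ℝ))) hL
  have h3 : c = 0 := by
    have h4 : Tendsto (fun _ : ℍ => c) atImInfty (𝓝 (L - L)) := by
      have : (fun w : ℍ => F (δ • ((N : ℝ) +ᵥ w)) - F (δ • w)) = fun _ => c := funext h1
      rwa [this] at h2
    have := tendsto_nhds_unique h4 tendsto_const_nhds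
    simpa using this.symm
  have := h1 w
  rw [h3, sub_eq_zero] at this
  exact this

/-- **Core of the Eichler–Shimura injectivity.** If `F + ε • F ∘ c` is `Γ₀(N)`-invariant for a
primitive `F` of the cusp form `f` (with `c z = -conj z`), then `f = 0`. -/
theorem h20_eq_zero_of_invariant (N : ℕ) [NeZero N] (f : CuspForm (Gamma0 N) 2) (F : ℍ → ℂ)
    (hF : HasEquivariantPrimitive N f F) (ε : ℂ)
    (hU : ∀ γ ∈ Gamma0 N, ∀ z : ℍ,
      F (γ • z) + ε * F (h20_refl (γ • z)) = F z + ε * F (h20_refl z)) : f = 0 := by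
  have hperF := h20_primitive_periodic N f F hF
  obtain ⟨hderiv, -, -, hcusp⟩ := hF
  have key : ∀ (lam : ℂ) (τ : ℍ),
      lam * f τ + (starRingEnd ℂ) (lam * ε) * (-(starRingEnd ℂ) (f (h20_refl τ))) = 0 := by
    intro lam τ
    set μ : ℂ := (starRingEnd ℂ) (lam * ε) with hμ
    let H : ℍ → ℂ := fun z => lam * F z + μ * (starRingEnd ℂ) (F (h20_refl z))
    have hHderiv : ∀ τ : ℍ, HasDerivAt (H ∘ ofComplex)
        (lam * f τ + μ * (-(starRingEnd ℂ) (f (h20_refl τ)))) τ := by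
      intro τ
      exact ((hderiv τ).const_mul lam).add ((h20_hasDerivAt_conj_refl hderiv τ).const_mul μ)
    let E : ℍ → ℂ := fun z => cexp (H z)
    have hEderiv : ∀ τ : ℍ, HasDerivAt (E ∘ ofComplex)
        (cexp (H τ) * (lam * f τ + μ * (-(starRingEnd ℂ) (f (h20_refl τ))))) τ := by
      intro τ
      have h := (hHderiv τ).cexp
      simp only [Function.comp_apply, ofComplex_apply] at h
      exact h
    have hEmd : MDiff E := by
      rw [mdifferentiable_iff]
      intro z hz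
      exact (hEderiv ⟨z, hz⟩).differentiableAt.differentiableWithinAt
    have hre : ∀ z, (H z).re = (lam * (F z + ε * F (h20_refl z))).re := by
      intro z
      have h1 : μ * (starRingEnd ℂ) (F (h20_refl z)) =
          (starRingEnd ℂ) (lam * ε * F (h20_refl z)) := by
        rw [hμ, ← map_mul]
      show (lam * F z + μ * (starRingEnd ℂ) (F (h20_refl z))).re = _
      rw [h1, Complex.add_re, Complex.conj_re, mul_add, Complex.add_re, mul_assoc]
    have hEinv : ∀ γ ∈ Gamma0 N, ∀ z : ℍ, ‖E (γ • z)‖ = ‖E z‖ := by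
      intro γ hγ z
      show ‖cexp (H (γ • z))‖ = ‖cexp (H z)‖
      rw [Complex.norm_exp, Complex.norm_exp, hre, hre, hU γ hγ z]
    have hHper : ∀ (δ : SL(2, ℤ)) (w : ℍ), H (δ • ((N : ℝ) +ᵥ w)) = H (δ • w) := by
      intro δ w
      have h1 : F (h20_refl (δ • ((N : ℝ) +ᵥ w))) = F (h20_refl (δ • w)) := by
        rw [← h20_jConj_smul_refl, ← h20_jConj_smul_refl, h20_refl_vadd]
        have h2 := hperF (jConjSL δ) ((-(N : ℝ)) +ᵥ h20_refl w)
        rw [vadd_vadd, add_neg_cancel, zero_vadd] at h2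
        exact h2.symm
      show lam * F (δ • ((N : ℝ) +ᵥ w)) + μ * (starRingEnd ℂ) (F (h20_refl (δ • ((N : ℝ) +ᵥ w))))
        = lam * F (δ • w) + μ * (starRingEnd ℂ) (F (h20_refl (δ • w)))
      rw [hperF δ w, h1]
    have hEper : ∀ (δ : SL(2, ℤ)) (w : ℍ), E (δ • ((N : ℝ) +ᵥ w)) = E (δ • w) := by
      intro δ w
      show cexp (H (δ • ((N : ℝ) +ᵥ w))) = cexp (H (δ • w))
      rw [hHper]
    have hEbdd : ∀ δ : SL(2, ℤ), IsBoundedAtImInfty (fun w : ℍ => E (δ • w)) := by
      intro δ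
      obtain ⟨L, hL⟩ := hcusp δ
      obtain ⟨L', hL'⟩ := hcusp (jConjSL δ)
      have h1 : Tendsto (fun w : ℍ => F (h20_refl (δ • w))) atImInfty (𝓝 L') := by
        have h := hL'.comp h20_tendsto_refl
        refine h.congr fun w => ?_
        simp only [Function.comp_apply, h20_jConj_smul_refl]
      have h2 : Tendsto (fun w : ℍ => E (δ • w)) atImInfty
          (𝓝 (cexp (lam * L + μ * (starRingEnd ℂ) L'))) := by
        apply (Complex.continuous_exp.tendsto _).comp
        exact (hL.const_mul lam).add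
          (((Complex.continuous_conj.tendsto _).comp h1).const_mul μ)
      exact h2.isBigO_one ℝ
    obtain ⟨c, hc⟩ := h20_const_of_norm_invariant (Gamma0 N) E hEmd (N : ℝ)
      (Nat.cast_pos.mpr (NeZero.pos N)) hEinv hEper hEbdd
    have hzero : HasDerivAt (E ∘ ofComplex) 0 τ := by
      refine (hasDerivAt_const (τ : ℂ) c).congr_of_eventuallyEq ?_
      filter_upwards with w
      simp [hc]
    have h := (hEderiv τ).unique hzero
    exact (mul_eq_zero.mp h).resolve_left (Complex.exp_ne_zero _)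
  ext τ
  have h1 := key 1 τ
  have h2 := key Complex.I τ
  simp only [one_mul, map_mul, Complex.conj_I] at h1 h2
  have h3 : 2 * Complex.I * f τ = 0 := by linear_combination Complex.I * h1 + h2
  simpa using h3

theorem h20_period_jConj (N : ℕ) (F : ℍ → ℂ) (hF : IsEquivariantPrimitive (Gamma0 N) F)
    (γ : Gamma0 N) (z : ℍ) :
    hF.period (jConjGamma0 N γ) = F (h20_refl ((γ : SL(2, ℤ)) • z)) - F (h20_refl z) := by
  have h := hF.sub_eq_period (jConjGamma0 N γ) (h20_refl z)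
  rw [jConjGamma0_coe, h20_jConj_smul_refl] at h
  exact h.symm

/-- **Eichler–Shimura injectivity** in terms of arbitrary equivariant primitives. -/
theorem h20_eq_zero_of_pair_eq_zero (N : ℕ) [NeZero N] (f g : CuspForm (Gamma0 N) 2)
    (F G : ℍ → ℂ) (hF : HasEquivariantPrimitive N f F) (hG : HasEquivariantPrimitive N g G)
    (h : hF.2.2.1.periodHom + charInvolution N ℂ ℂ hF.2.2.1.periodHom
      + (hG.2.2.1.periodHom - charInvolution N ℂ ℂ hG.2.2.1.periodHom) = 0) :
    f = 0 ∧ g = 0 := by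
  set P := hF.2.2.1.periodHom with hP
  set Q := hG.2.2.1.periodHom with hQ
  have hιι : ∀ ψ : Additive (Gamma0 N) →+ ℂ,
      charInvolution N ℂ ℂ (charInvolution N ℂ ℂ ψ) = ψ := charInvolution_charInvolution N ℂ ℂ
  have h' : (P + charInvolution N ℂ ℂ P) + (Q - charInvolution N ℂ ℂ Q) = 0 := h
  have h'' : (charInvolution N ℂ ℂ P + P) + (charInvolution N ℂ ℂ Q - Q) = 0 := by
    have h1 := congrArg (charInvolution N ℂ ℂ) h'
    rw [map_add, map_add, map_sub, hιι, hιι, map_zero] at h1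
    exact h1
  have hPz : P + charInvolution N ℂ ℂ P = 0 := by
    have h2 : (2 : ℂ) • (P + charInvolution N ℂ ℂ P) = 0 := by
      have h3 : (2 : ℂ) • (P + charInvolution N ℂ ℂ P) =
          ((P + charInvolution N ℂ ℂ P) + (Q - charInvolution N ℂ ℂ Q)) +
            ((charInvolution N ℂ ℂ P + P) + (charInvolution N ℂ ℂ Q - Q)) := by
        rw [two_smul]
        abel
      rw [h3, h', h'', add_zero]
    exact (smul_eq_zero.mp h2).resolve_left two_ne_zero
  have hQz : Q - charInvolution N ℂ ℂ Q = 0 := by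
    rw [hPz, zero_add] at h'
    exact h'
  constructor
  · apply h20_eq_zero_of_invariant N f F hF 1
    intro γ hγ z
    have h1 := DFunLike.congr_fun hPz (Additive.ofMul (⟨γ, hγ⟩ : Gamma0 N))
    rw [AddMonoidHom.add_apply, charInvolution_apply, toMul_ofMul, hP,
      IsEquivariantPrimitive.periodHom_apply, IsEquivariantPrimitive.periodHom_apply,
      ← hF.2.2.1.sub_eq_period ⟨γ, hγ⟩ z, h20_period_jConj N F hF.2.2.1 ⟨γ, hγ⟩ z] at h1
    have h2 : F (γ • z) - F z + (F (h20_refl (γ • z)) - F (h20_refl z)) = 0 := h1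
    linear_combination h2
  · apply h20_eq_zero_of_invariant N g G hG (-1)
    intro γ hγ z
    have h1 := DFunLike.congr_fun hQz (Additive.ofMul (⟨γ, hγ⟩ : Gamma0 N))
    rw [AddMonoidHom.sub_apply, charInvolution_apply, toMul_ofMul, hQ,
      IsEquivariantPrimitive.periodHom_apply, IsEquivariantPrimitive.periodHom_apply,
      ← hG.2.2.1.sub_eq_period ⟨γ, hγ⟩ z, h20_period_jConj N G hG.2.2.1 ⟨γ, hγ⟩ z] at h1
    have h2 : G (γ • z) - G z - (G (h20_refl (γ • z)) - G (h20_refl z)) = 0 := h1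
    linear_combination h2

/-- **Eichler–Shimura injectivity**: the period pairing is injective, given linearity of the
period map and existence of primitives. -/
theorem h20_periodHomPair_injective (N : ℕ) [NeZero N] (hlin : ExistsPeriodMapLinear N)
    (hprim : ∀ f : CuspForm (Gamma0 N) 2, ∃ F : ℍ → ℂ, HasEquivariantPrimitive N f F) :
    Function.Injective (periodHomPair N) := by
  obtain ⟨pml, hpml, hpair⟩ := periodHomPair_def N hlin
  refine (injective_iff_map_eq_zero (periodHomPair N)).mpr ?_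
  rintro ⟨f, g⟩ hfg
  rw [hpair, LinearMap.coprod_apply, LinearMap.comp_apply, LinearMap.comp_apply, hpml f,
    hpml g, LinearMap.add_apply, LinearMap.sub_apply, LinearMap.id_apply,
    LinearMap.id_apply] at hfg
  obtain ⟨F, hF⟩ := hprim f
  obtain ⟨G, hG⟩ := hprim g
  obtain ⟨F₀, hF₀, hfF⟩ := periodMap_def N f hF
  obtain ⟨G₀, hG₀, hgG⟩ := periodMap_def N g hG
  rw [hfF, hgG] at hfg
  obtain ⟨hf, hg⟩ := h20_eq_zero_of_pair_eq_zero N f g F₀ G₀ hF₀ hG₀ hfg
  rw [hf, hg]
  rfl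

end Reflection

end Fermat.Agent.S21
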