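import Mathlib
import Fermat.Prelude.Def_ModularCurve_PeriodHomPair
import Fermat.Agent.S21.h58_Parabolic

/-!
# S21, block (H), part 4: assembly lemmas (pure linear algebra)

Given injectivity of the period pairing and finite-dimensionality of the parabolic
homomorphisms, `2 * dim S₂(Γ₀(N)) ≤ dim Hom_par`, and if moreover
`dim Hom_par ≤ 2 * dim S₂(Γ₀(N))` the period pairing is onto the parabolic homomorphisms.
-/

set_option autoImplicit false

namespace Fermat.Agent.S21

open scoped MatrixGroups

variable {N : ℕ} [NeZero N]

/-- The period pairing with codomain restricted to the parabolic homomorphisms. -/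
noncomputable def h58_pairPar (N : ℕ) [NeZero N] :
    (CuspForm (CongruenceSubgroup.Gamma0 N) 2 × CuspForm (CongruenceSubgroup.Gamma0 N) 2) →ₗ[ℂ]
      ModularCurve.Period.parabolicHoms ℂ (CongruenceSubgroup.Gamma0 N) ℂ :=
  LinearMap.codRestrict _ (ModularCurve.periodHomPair N)
    (fun x => h58_range_periodHomPair_le N (LinearMap.mem_range_self _ x))

theorem h58_pairPar_injective (hinj : Function.Injective (ModularCurve.periodHomPair N)) :
    Function.Injective (h58_pairPar N) := by
  intro x y hxy
  apply hinj
  have := congrArg Subtype.val hxy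
  exact this

/-- Finite-dimensionality of `S₂(Γ₀(N))` from the injectivity of the period pairing. -/
theorem h58_finite_cuspForm (hinj : Function.Injective (ModularCurve.periodHomPair N))
    [Module.Finite ℂ (ModularCurve.Period.parabolicHoms ℂ (CongruenceSubgroup.Gamma0 N) ℂ)] :
    Module.Finite ℂ (CuspForm (CongruenceSubgroup.Gamma0 N) 2) := by
  have h1 : Function.Injective ((h58_pairPar N).comp
      (LinearMap.inl ℂ (CuspForm (CongruenceSubgroup.Gamma0 N) 2)
        (CuspForm (CongruenceSubgroup.Gamma0 N) 2))) :=
    (h58_pairPar_injective hinj).comp LinearMap.inl_injective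
  exact Module.Finite.of_injective _ h1

/-- **(H5a)** `2 * dim S₂(Γ₀(N)) ≤ dim Hom_par(Γ₀(N), ℂ)`. -/
theorem h58_two_mul_finrank_le (hinj : Function.Injective (ModularCurve.periodHomPair N))
    [Module.Finite ℂ (ModularCurve.Period.parabolicHoms ℂ (CongruenceSubgroup.Gamma0 N) ℂ)] :
    2 * Module.finrank ℂ (CuspForm (CongruenceSubgroup.Gamma0 N) 2)
      ≤ Module.finrank ℂ
          (ModularCurve.Period.parabolicHoms ℂ (CongruenceSubgroup.Gamma0 N) ℂ) := by
  have := h58_finite_cuspForm hinj
  have h1 := LinearMap.finrank_le_finrank_of_injective (h58_pairPar_injective hinj)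
  rw [Module.finrank_prod] at h1
  omega

/-- **(H5b)** the frozen S21 statement from injectivity and the dimension bound. -/
theorem h58_S21_of_finrank (hinj : Function.Injective (ModularCurve.periodHomPair N))
    [Module.Finite ℂ (ModularCurve.Period.parabolicHoms ℂ (CongruenceSubgroup.Gamma0 N) ℂ)]
    (hdim : Module.finrank ℂ
        (ModularCurve.Period.parabolicHoms ℂ (CongruenceSubgroup.Gamma0 N) ℂ)
      ≤ 2 * Module.finrank ℂ (CuspForm (CongruenceSubgroup.Gamma0 N) 2)) :
    Function.Injective (ModularCurve.periodHomPair N)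
      ∧ LinearMap.range (ModularCurve.periodHomPair N)
          = ModularCurve.Period.parabolicHoms ℂ (CongruenceSubgroup.Gamma0 N) ℂ := by
  refine ⟨hinj, ?_⟩
  have := h58_finite_cuspForm hinj
  refine Submodule.eq_of_le_of_finrank_le (h58_range_periodHomPair_le N) ?_
  rw [LinearMap.finrank_range_of_inj hinj, Module.finrank_prod]
  omega

end Fermat.Agent.S21
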