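import Mathlib
import Fermat.Prelude.Def_ModularCurve_PeriodHomPair
import Fermat.Agent.S21.h58_Prim
import Fermat.Agent.S21.h58_Parabolic

/-!
# S21, analytic block (H), part 3: injectivity of the period pairing (reduction)

We reduce the injectivity of `periodHomPair N` to a maximum-modulus statement `h58_MPStatement`
for holomorphic functions on `ℍ` whose modulus is `Γ₀(N)`-invariant and which are periodic and
bounded at every cusp.
-/

set_option autoImplicit false

namespace Fermat.Agent.S21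

open UpperHalfPlane Derivative Filter Topology
open scoped MatrixGroups ModularForm Manifold Real ComplexConjugate

open Fermat.Agent.S22

/-- The maximum-modulus statement used for the injectivity of the period pairing. -/
def h58_MPStatement (Γ : Subgroup SL(2, ℤ)) : Prop :=
  ∀ (E : ℍ → ℂ), MDiff E → ∀ (M : ℝ), 0 < M →
    (∀ γ ∈ Γ, ∀ z : ℍ, ‖E (γ • z)‖ = ‖E z‖) →
    (∀ (δ : SL(2, ℤ)) (w : ℍ), E (δ • ((M : ℝ) +ᵥ w)) = E (δ • w)) →
    (∀ δ : SL(2, ℤ), IsBoundedAtImInfty (fun w : ℍ => E (δ • w))) →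
    ∃ c : ℂ, ∀ z, E z = c

/-! ### The antiholomorphic involution -/

/-- `B ↦ conj ∘ B ∘ (z ↦ -conj z)`, as the weight-zero slash by `J`. -/
noncomputable def h58_star (B : ℍ → ℂ) : ℍ → ℂ := B ∣[(0 : ℤ)] J

theorem h58_star_apply (B : ℍ → ℂ) (z : ℍ) : h58_star B z = conj (B (J • z)) := by
  simp [h58_star, ModularForm.slash_apply]

theorem h58_star_mdiff {B : ℍ → ℂ} (hB : MDiff B) : MDiff (h58_star B) :=
  hB.slash 0 J

theorem h58_J_smul_J_smul (z : ℍ) : J • (J • z) = z := by
  rw [← mul_smul, ← sq, J_sq, one_smul]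

theorem h58_im_J_smul (z : ℍ) : (J • z).im = z.im := by
  have := coe_J_smul z
  have h2 : ((J • z : ℍ) : ℂ).im = (-conj (z : ℂ)).im := by rw [this]
  simpa using h2

theorem h58_tendsto_J : Tendsto (fun z : ℍ => J • z) atImInfty atImInfty := by
  rw [atImInfty, tendsto_comap_iff]
  have : (UpperHalfPlane.im ∘ fun z : ℍ => J • z) = UpperHalfPlane.im := by
    funext z; exact h58_im_J_smul z
  rw [this]
  exact tendsto_comap

/-- `J` intertwines `δ` and its `jConj`-conjugate. -/
theorem h58_J_mul (δ : SL(2, ℤ)) :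
    J * (Matrix.SpecialLinearGroup.mapGL ℝ δ)
      = Matrix.SpecialLinearGroup.mapGL ℝ (ModularCurve.Period.jConjSL δ) * J := by
  ext i j
  fin_cases i <;> fin_cases j <;>
    simp [Matrix.mul_apply, Fin.sum_univ_two, ModularCurve.Period.jConjMat]

theorem h58_J_smul_smul (δ : SL(2, ℤ)) (z : ℍ) :
    J • (δ • z) = (ModularCurve.Period.jConjSL δ) • (J • z) := by
  show J • ((Matrix.SpecialLinearGroup.mapGL ℝ δ) • z)
    = (Matrix.SpecialLinearGroup.mapGL ℝ (ModularCurve.Period.jConjSL δ)) • (J • z)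
  rw [← mul_smul, ← mul_smul, h58_J_mul]

theorem h58_star_isCuspPer {M : ℝ} {G : ℍ → ℂ} (hG : IsCuspPer M G) :
    IsCuspPer M (h58_star G) where
  mdiff := h58_star_mdiff hG.mdiff
  periodic := by
    intro w
    by_cases hw : 0 < Complex.im w
    · have hw' : 0 < Complex.im (w + M) := by simpa using hw
      simp only [Function.comp_apply]
      rw [ofComplex_apply_of_im_pos hw', ofComplex_apply_of_im_pos hw, h58_star_apply,
        h58_star_apply, J_smul, J_smul]
      congr 1
      have e : -(conj (w + (M : ℂ))) = -(conj w) - (M : ℂ) := by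
        simp; ring
      have h1 := hG.periodic (-(conj w) - (M : ℂ))
      simp only [Function.comp_apply, sub_add_cancel] at h1
      show G (ofComplex (-(conj (w + (M : ℂ))))) = G (ofComplex (-(conj w)))
      rw [e, h1]
    · have hw0 : Complex.im w ≤ 0 := not_lt.mp hw
      have hw' : Complex.im (w + M) ≤ 0 := by simpa using hw0
      simp [ofComplex_apply_of_im_nonpos hw', ofComplex_apply_of_im_nonpos hw0]
  zero := by
    have h0 : Tendsto G atImInfty (𝓝 0) := hG.zero
    have h1 : Tendsto (fun z : ℍ => conj (G (J • z))) atImInfty (𝓝 (conj 0)) :=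
      (Complex.continuous_conj.tendsto 0).comp (h0.comp h58_tendsto_J)
    rw [map_zero] at h1
    show Tendsto (h58_star G) atImInfty (𝓝 0)
    exact h1.congr fun z => (h58_star_apply G z).symm

/-! ### Closure properties of cusp-regular functions -/

theorem h58_CuspReg.add {M : ℝ} {H₁ H₂ : ℍ → ℂ} (h₁ : h58_CuspReg M H₁)
    (h₂ : h58_CuspReg M H₂) : h58_CuspReg M (H₁ + H₂) := by
  intro δ
  obtain ⟨c₁, G₁, hG₁, e₁⟩ := h₁ δ
  obtain ⟨c₂, G₂, hG₂, e₂⟩ := h₂ δ
  refine ⟨c₁ + c₂, G₁ + G₂, hG₁.add hG₂, fun z => ?_⟩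
  simp only [Pi.add_apply, e₁, e₂]
  ring

theorem h58_CuspReg.smul {M : ℝ} {H : ℍ → ℂ} (a : ℂ) (h : h58_CuspReg M H) :
    h58_CuspReg M (a • H) := by
  intro δ
  obtain ⟨c, G, hG, e⟩ := h δ
  refine ⟨a * c, a • G, hG.smul a, fun z => ?_⟩
  simp only [Pi.smul_apply, smul_eq_mul, e]
  ring

theorem h58_CuspReg.sub {M : ℝ} {H₁ H₂ : ℍ → ℂ} (h₁ : h58_CuspReg M H₁)
    (h₂ : h58_CuspReg M H₂) : h58_CuspReg M (H₁ - H₂) := by
  intro δ
  obtain ⟨c₁, G₁, hG₁, e₁⟩ := h₁ δ
  obtain ⟨c₂, G₂, hG₂, e₂⟩ := h₂ δ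
  refine ⟨c₁ - c₂, G₁ - G₂, hG₁.sub hG₂, fun z => ?_⟩
  simp only [Pi.sub_apply, e₁, e₂]
  ring

theorem h58_CuspReg.star {M : ℝ} {H : ℍ → ℂ} (h : h58_CuspReg M H) :
    h58_CuspReg M (h58_star H) := by
  intro δ
  obtain ⟨c, G, hG, e⟩ := h (ModularCurve.Period.jConjSL δ)
  refine ⟨conj c, h58_star G, h58_star_isCuspPer hG, fun z => ?_⟩
  rw [h58_star_apply, h58_star_apply, h58_J_smul_smul, e, map_add]

/-! ### From cusp-regular functions to the maximum-modulus statement -/

theorem h58_D_eq_zero_of_exp_const {H : ℍ → ℂ} (hH : MDiff H)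
    (h : ∃ c : ℂ, ∀ z, Complex.exp (H z) = c) : D H = 0 := by
  obtain ⟨c, hc⟩ := h
  funext τ
  have hd : DifferentiableAt ℂ (H ∘ ofComplex) (τ : ℂ) := mdifferentiableAt_iff.mp (hH τ)
  have h1 := hd.hasDerivAt.cexp
  have h2 : (fun x : ℂ => Complex.exp ((H ∘ ofComplex) x)) = fun _ => c := by
    funext x; exact hc _
  rw [h2] at h1
  have h3 := h1.unique (hasDerivAt_const (τ : ℂ) c)
  have h4 : deriv (H ∘ ofComplex) (τ : ℂ) = 0 := by
    rcases mul_eq_zero.mp h3 with h5 | h5
    · exact absurd h5 (Complex.exp_ne_zero _)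
    · exact h5
  show (2 * π * Complex.I)⁻¹ * deriv (H ∘ ofComplex) (τ : ℂ) = 0
  rw [h4, mul_zero]

/-- The exponential of a cusp-regular holomorphic function with `Γ`-invariant real part
is constant, given the maximum-modulus statement. -/
theorem h58_const_of_re_invariant {Γ : Subgroup SL(2, ℤ)} (hMP : h58_MPStatement Γ)
    {M : ℝ} (hM : 0 < M) {H : ℍ → ℂ} (hH : MDiff H) (hreg : h58_CuspReg M H)
    (hinv : ∀ γ ∈ Γ, ∀ z : ℍ, (H (γ • z)).re = (H z).re) :
    ∃ c : ℂ, ∀ z, H z = c := by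
  have hE : MDiff (fun z => Complex.exp (H z)) := by
    rw [UpperHalfPlane.mdifferentiable_iff]
    exact (UpperHalfPlane.mdifferentiable_iff.mp hH).cexp
  have hexp := hMP (fun z => Complex.exp (H z)) hE M hM
    (fun γ hγ z => by
      simp only [Complex.norm_exp]
      rw [hinv γ hγ z])
    (fun δ w => by
      obtain ⟨c, G, hG, e⟩ := hreg δ
      show Complex.exp (H (δ • ((M : ℝ) +ᵥ w))) = Complex.exp (H (δ • w))
      rw [e, e]
      have h1 := hG.periodic (w : ℂ)
      simp only [Function.comp_apply, ofComplex_apply] at h1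
      have h2 : ofComplex ((w : ℂ) + (M : ℂ)) = (M : ℝ) +ᵥ w := by
        have h3 : ((w : ℂ) + (M : ℂ)) = (((M : ℝ) +ᵥ w : ℍ) : ℂ) := by
          rw [UpperHalfPlane.coe_vadd]; ring
        rw [h3, ofComplex_apply]
      rw [h2] at h1
      rw [h1])
    (fun δ => by
      obtain ⟨c, G, hG, e⟩ := hreg δ
      have h0 : Tendsto G atImInfty (𝓝 0) := hG.zero
      have h1 : Tendsto (fun w : ℍ => Complex.exp (H (δ • w))) atImInfty
          (𝓝 (Complex.exp (0 + c))) := by
        have h2 : Tendsto (fun w : ℍ => G w + c) atImInfty (𝓝 (0 + c)) :=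
          h0.add tendsto_const_nhds
        have h3 := (Complex.continuous_exp.tendsto (0 + c)).comp h2
        exact h3.congr fun w => by simp only [Function.comp_apply, e]
      exact h1.isBigO_one ℝ)
  exact h58_const_of_D_eq_zero hH (h58_D_eq_zero_of_exp_const hH hexp)


/-! ### Injectivity of the period pairing -/

variable {N : ℕ} [NeZero N]

/-- The harmonic function `U = (F_f + F_g) + (F_f - F_g) ∘ J` is `Γ₀(N)`-invariant when the
period pairing of `(f, g)` vanishes. -/
theorem h58_U_invariant (f g : CuspForm (CongruenceSubgroup.Gamma0 N) 2)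
    (h : ModularCurve.periodHomPair N (f, g) = 0) (γ : SL(2, ℤ))
    (hγ : γ ∈ CongruenceSubgroup.Gamma0 N) (z : ℍ) :
    (h58_F f (γ • z) + h58_F g (γ • z)) + (h58_F f (J • (γ • z)) - h58_F g (J • (γ • z)))
      = (h58_F f z + h58_F g z) + (h58_F f (J • z) - h58_F g (J • z)) := by
  have h1 := congrArg (fun ψ : Additive (CongruenceSubgroup.Gamma0 N) →+ ℂ =>
    ψ (Additive.ofMul ⟨γ, hγ⟩)) h
  rw [h58_periodHomPair_apply] at h1
  simp only [AddMonoidHom.add_apply, AddMonoidHom.sub_apply,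
    ModularCurve.Period.charInvolution_apply, toMul_ofMul, AddMonoidHom.zero_apply] at h1
  rw [h58_periodMap_apply f ⟨γ, hγ⟩ z, h58_periodMap_apply g ⟨γ, hγ⟩ z,
    h58_periodMap_apply f (ModularCurve.Period.jConjGamma0 N ⟨γ, hγ⟩) (J • z),
    h58_periodMap_apply g (ModularCurve.Period.jConjGamma0 N ⟨γ, hγ⟩) (J • z)] at h1
  simp only [ModularCurve.Period.jConjGamma0_coe] at h1
  rw [← h58_J_smul_smul] at h1
  linear_combination h1

/-- **(H4a)** vanishing of the period pairing forces both forms to vanish. -/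
theorem h58_eq_zero_of_pair_eq_zero (hMP : h58_MPStatement (CongruenceSubgroup.Gamma0 N))
    (f g : CuspForm (CongruenceSubgroup.Gamma0 N) 2)
    (h : ModularCurve.periodHomPair N (f, g) = 0) : f = 0 ∧ g = 0 := by
  set A : ℍ → ℂ := h58_F f + h58_F g with hA
  set B : ℍ → ℂ := h58_F f - h58_F g with hB
  have hAm : MDiff A := (h58_F_mdiff f).add (h58_F_mdiff g)
  have hBm : MDiff B := (h58_F_mdiff f).sub (h58_F_mdiff g)
  have hAreg : h58_CuspReg (h58_M N) A := (h58_F_cuspReg f).add (h58_F_cuspReg g)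
  have hBreg : h58_CuspReg (h58_M N) B := (h58_F_cuspReg f).sub (h58_F_cuspReg g)
  have hBsm : MDiff (h58_star B) := h58_star_mdiff hBm
  have hBsreg : h58_CuspReg (h58_M N) (h58_star B) := hBreg.star
  -- invariance of `U z = A z + B (J • z)`
  have hU : ∀ γ ∈ CongruenceSubgroup.Gamma0 N, ∀ z : ℍ,
      A (γ • z) + B (J • (γ • z)) = A z + B (J • z) := by
    intro γ hγ z
    have := h58_U_invariant f g h γ hγ z
    simpa [hA, hB] using this
  -- first holomorphic function: real part of `U`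
  have h1 : ∃ k₁ : ℂ, ∀ z, (A + h58_star B) z = k₁ := by
    refine h58_const_of_re_invariant hMP (h58_M_pos' N) (hAm.add hBsm) (hAreg.add hBsreg) ?_
    intro γ hγ z
    have e : ∀ w : ℍ, ((A + h58_star B) w).re = (A w + B (J • w)).re := by
      intro w
      simp [h58_star_apply]
    rw [e, e, hU γ hγ z]
  -- second holomorphic function: imaginary part of `U`
  have h2 : ∃ k₂ : ℂ, ∀ z, ((-Complex.I) • (A - h58_star B)) z = k₂ := by
    refine h58_const_of_re_invariant hMP (h58_M_pos' N) ((hAm.sub hBsm).const_smul _)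
      ((hAreg.sub hBsreg).smul _) ?_
    intro γ hγ z
    have e : ∀ w : ℍ, (((-Complex.I) • (A - h58_star B)) w).re = (A w + B (J • w)).im := by
      intro w
      simp [h58_star_apply]
    rw [e, e, hU γ hγ z]
  obtain ⟨k₁, hk₁⟩ := h1
  obtain ⟨k₂, hk₂⟩ := h2
  have hAc : ∀ z, A z = (k₁ + Complex.I * k₂) / 2 := by
    intro z
    have e1 := hk₁ z
    have e2 := hk₂ z
    simp only [Pi.add_apply, Pi.smul_apply, Pi.sub_apply, smul_eq_mul] at e1 e2
    have e3 : A z - h58_star B z = Complex.I * k₂ := by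
      rw [← e2]
      have := Complex.I_mul_I
      linear_combination (A z - h58_star B z) * this
    linear_combination (1 / 2 : ℂ) * e1 + (1 / 2 : ℂ) * e3
  have hBsc : ∀ z, h58_star B z = (k₁ - Complex.I * k₂) / 2 := by
    intro z
    have e1 := hk₁ z
    simp only [Pi.add_apply] at e1
    have := hAc z
    linear_combination e1 - this
  have hBc : ∀ z, B z = conj ((k₁ - Complex.I * k₂) / 2) := by
    intro z
    have e := hBsc (J • z)
    rw [h58_star_apply, h58_J_smul_J_smul] at e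
    rw [← e, Complex.conj_conj]
  have hDA : D A = 0 := by
    have : A = fun _ => (k₁ + Complex.I * k₂) / 2 := funext hAc
    rw [this]; exact normalizedDerivOfComplex_const _
  have hDB : D B = 0 := by
    have : B = fun _ => conj ((k₁ - Complex.I * k₂) / 2) := funext hBc
    rw [this]; exact normalizedDerivOfComplex_const _
  rw [hA, normalizedDerivOfComplex_add _ _ (h58_F_mdiff f) (h58_F_mdiff g), h58_F_D, h58_F_D]
    at hDA
  rw [hB, normalizedDerivOfComplex_sub _ _ (h58_F_mdiff f) (h58_F_mdiff g), h58_F_D, h58_F_D]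
    at hDB
  have hpi : (2 * (π : ℂ) * Complex.I)⁻¹ ≠ 0 := by
    apply inv_ne_zero
    simp [Real.pi_ne_zero]
  have hsum : ∀ τ : ℍ, f τ + g τ = 0 := by
    intro τ
    have := congrFun hDA τ
    simp only [Pi.add_apply, Pi.smul_apply, smul_eq_mul, Pi.zero_apply] at this
    rw [← mul_add] at this
    exact (mul_eq_zero.mp this).resolve_left hpi
  have hdiff : ∀ τ : ℍ, f τ - g τ = 0 := by
    intro τ
    have := congrFun hDB τ
    simp only [Pi.sub_apply, Pi.smul_apply, smul_eq_mul, Pi.zero_apply] at this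
    rw [← mul_sub] at this
    exact (mul_eq_zero.mp this).resolve_left hpi
  constructor
  · ext τ
    have := hsum τ
    have := hdiff τ
    show f τ = 0
    linear_combination (1 / 2 : ℂ) * hsum τ + (1 / 2 : ℂ) * hdiff τ
  · ext τ
    show g τ = 0
    linear_combination (1 / 2 : ℂ) * hsum τ - (1 / 2 : ℂ) * hdiff τ

/-- **(H4)** injectivity of the period pairing, from the maximum-modulus statement. -/
theorem h58_periodHomPair_injective_of_MP
    (hMP : h58_MPStatement (CongruenceSubgroup.Gamma0 N)) :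
    Function.Injective (ModularCurve.periodHomPair N) := by
  rw [injective_iff_map_eq_zero]
  rintro ⟨f, g⟩ h
  obtain ⟨hf, hg⟩ := h58_eq_zero_of_pair_eq_zero hMP f g h
  rw [hf, hg]
  rfl

end Fermat.Agent.S21
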