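import Mathlib
import Fermat.Agent.S24.h47_OrbCount

set_option autoImplicit false

namespace Fermat.Agent.S21

open Module Fermat.Agent.S24

section LinAlg

variable (K : Type*) [Field K] {G X : Type*} [Group G] [MulAction G X]

/-- Translation operator on functions: `(h82_tr K g v) x = v (g • x)`. -/
noncomputable def h82_tr (g : G) : (X → K) →ₗ[K] (X → K) :=
  LinearMap.funLeft K K (fun x => g • x)

/-- Norm operator: sum of `n` translates. -/
noncomputable def h82_nm (g : G) (n : ℕ) : (X → K) →ₗ[K] (X → K) :=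
  ∑ k ∈ Finset.range n, h82_tr K (g ^ k)

/-- Functions invariant under `g`. -/
noncomputable def h82_fix (g : G) : Submodule K (X → K) :=
  LinearMap.ker (h82_tr K g - LinearMap.id)

variable {K}

lemma h82_tr_apply (g : G) (v : X → K) (x : X) : h82_tr K g v x = v (g • x) := rfl

lemma h82_nm_apply (g : G) (n : ℕ) (v : X → K) (x : X) :
    h82_nm K g n v x = ∑ k ∈ Finset.range n, v (g ^ k • x) := by
  simp [h82_nm, LinearMap.sum_apply, Finset.sum_apply, h82_tr_apply]

lemma h82_mem_fix {g : G} {v : X → K} : v ∈ h82_fix K g ↔ ∀ x, v (g • x) = v x := by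
  simp only [h82_fix, LinearMap.mem_ker, LinearMap.sub_apply, LinearMap.id_apply, sub_eq_zero]
  constructor
  · intro h x
    exact congrFun h x
  · intro h
    funext x
    exact h x

lemma h82_fix_pow {g : G} {v : X → K} (hv : v ∈ h82_fix K g) (k : ℕ) (x : X) :
    v (g ^ k • x) = v x := by
  induction k with
  | zero => simp
  | succ k ih => rw [pow_succ', mul_smul, h82_mem_fix.mp hv, ih]

lemma h82_nm_of_mem_fix {g : G} {v : X → K} (hv : v ∈ h82_fix K g) (n : ℕ) :
    h82_nm K g n v = (n : K) • v := by
  funext x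
  rw [h82_nm_apply, Pi.smul_apply, smul_eq_mul]
  simp [h82_fix_pow hv]

/-- The norm operator is unchanged by a translate, when `g ^ n` acts trivially. -/
lemma h82_nm_tr {g : G} {n : ℕ} (hg : ∀ x : X, g ^ n • x = x) (v : X → K) :
    h82_nm K g n (h82_tr K g v) = h82_nm K g n v := by
  funext x
  rw [h82_nm_apply, h82_nm_apply]
  have h1 : ∀ k, h82_tr K g v (g ^ k • x) = v (g ^ (k + 1) • x) := by
    intro k
    rw [h82_tr_apply, pow_succ', mul_smul]
  simp only [h1]
  have h2 := Finset.sum_range_succ' (fun k => v (g ^ k • x)) n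
  have h3 := Finset.sum_range_succ (fun k => v (g ^ k • x)) n
  rw [h3] at h2
  simp only [pow_zero, one_smul, hg x] at h2
  exact (add_right_cancel h2).symm

lemma h82_fix_zpowers {g : G} {v : X → K} (hv : v ∈ h82_fix K g) {h : G}
    (hh : h ∈ Subgroup.zpowers g) (x : X) : v (h • x) = v x := by
  let H : Subgroup G :=
    { carrier := {h | ∀ x, v (h • x) = v x}
      mul_mem' := fun {a b} ha hb x => by rw [mul_smul, ha, hb]
      one_mem' := fun x => by rw [one_smul]
      inv_mem' := fun {a} ha x => by
        have := ha (a⁻¹ • x)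
        rw [smul_inv_smul] at this
        exact this.symm }
  have hg : g ∈ H := fun x => h82_mem_fix.mp hv x
  exact (Subgroup.zpowers_le.mpr hg) hh x

lemma h82_finrank_fix [Finite X] (g : G) :
    finrank K (h82_fix (X := X) K g) = h47_orbCount X g := by
  classical
  have := Fintype.ofFinite X
  let mk : X → MulAction.orbitRel.Quotient (Subgroup.zpowers g) X := Quotient.mk''
  have hmk : Function.Surjective mk := Quotient.mk''_surjective
  let L : (MulAction.orbitRel.Quotient (Subgroup.zpowers g) X → K) →ₗ[K] (X → K) :=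
    LinearMap.funLeft K K mk
  have hinj : Function.Injective L := LinearMap.funLeft_injective_of_surjective K K mk hmk
  have hrange : LinearMap.range L = h82_fix K g := by
    ext f
    rw [h82_mem_fix]
    simp only [LinearMap.mem_range]
    constructor
    · rintro ⟨φ, rfl⟩ x
      show φ (mk (g • x)) = φ (mk x)
      congr 1
      apply Quotient.sound
      show MulAction.orbitRel _ _ _ _
      rw [MulAction.orbitRel_apply]
      exact ⟨⟨g, Subgroup.mem_zpowers g⟩, by simp [Subgroup.smul_def]⟩
    · intro hf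
      have hf' : f ∈ h82_fix K g := h82_mem_fix.mpr hf
      refine ⟨Quotient.lift f ?_, ?_⟩
      · intro a b hab
        have hab' : a ∈ MulAction.orbit (Subgroup.zpowers g) b := hab
        obtain ⟨⟨h, hh⟩, rfl⟩ := hab'
        exact h82_fix_zpowers hf' hh b
      · funext x
        rfl
  rw [← hrange, LinearMap.finrank_range_of_inj hinj, Module.finrank_fintype_fun_eq_card,
    h47_orbCount, Nat.card_eq_fintype_card]

lemma h82_disjoint_ker_nm_fix [CharZero K] (g : G) {n : ℕ} (hn : n ≠ 0) :
    Disjoint (LinearMap.ker (h82_nm (X := X) K g n)) (h82_fix K g) := by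
  rw [Submodule.disjoint_def]
  intro v hv hv'
  rw [LinearMap.mem_ker, h82_nm_of_mem_fix hv'] at hv
  have : (n : K) ≠ 0 := Nat.cast_ne_zero.mpr hn
  exact (smul_eq_zero.mp hv).resolve_left this

lemma h82_finrank_ker_nm_le [CharZero K] [Finite X] (g : G) {n : ℕ} (hn : n ≠ 0) :
    finrank K (LinearMap.ker (h82_nm (X := X) K g n)) + h47_orbCount X g ≤ Nat.card X := by
  classical
  have := Fintype.ofFinite X
  have h := Submodule.finrank_add_finrank_le_of_disjoint
    (h82_disjoint_ker_nm_fix (K := K) (X := X) g hn)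
  rw [h82_finrank_fix, Module.finrank_fintype_fun_eq_card] at h
  rwa [Nat.card_eq_fintype_card]

/-- The sum functional. -/
noncomputable def h82_sum (K : Type*) [Field K] {X : Type*} [Fintype X] : (X → K) →ₗ[K] K :=
  ∑ x, LinearMap.proj x

lemma h82_sum_apply [Fintype X] (v : X → K) : h82_sum K v = ∑ x, v x := by
  simp [h82_sum, LinearMap.sum_apply]

lemma h82_finrank_fix0 [Fintype X] (g : G) :
    h47_orbCount X g ≤
      finrank K ((h82_fix K g ⊓ LinearMap.ker (h82_sum (X := X) K) : Submodule K (X → K))) + 1 := by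
  have h1 := Submodule.finrank_sup_add_finrank_inf_eq (h82_fix (X := X) K g)
    (LinearMap.ker (h82_sum (X := X) K))
  have h2 : finrank K (LinearMap.range (h82_sum (X := X) K)) +
      finrank K (LinearMap.ker (h82_sum (X := X) K)) = Fintype.card X := by
    rw [LinearMap.finrank_range_add_finrank_ker, Module.finrank_fintype_fun_eq_card]
  have h3 : finrank K (LinearMap.range (h82_sum (X := X) K)) ≤ 1 := by
    calc finrank K (LinearMap.range (h82_sum (X := X) K)) ≤ finrank K K := Submodule.finrank_le _
      _ = 1 := Module.finrank_self K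
  have h4 : finrank K ((h82_fix K g ⊔ LinearMap.ker (h82_sum (X := X) K) :
      Submodule K (X → K))) ≤ Fintype.card X := by
    calc finrank K ((h82_fix K g ⊔ LinearMap.ker (h82_sum (X := X) K) : Submodule K (X → K)))
        ≤ finrank K (X → K) := Submodule.finrank_le _
      _ = Fintype.card X := Module.finrank_fintype_fun_eq_card K
  rw [h82_finrank_fix] at h1
  omega

/-- The subgroup of `g` with `e_{g x} - e_x ∈ W` for all `x`. -/
def h82_mover [DecidableEq X] (W : Submodule K (X → K)) : Subgroup G where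
  carrier := {g | ∀ x : X, Pi.single (g • x) (1 : K) - Pi.single x (1 : K) ∈ W}
  mul_mem' := fun {a b} ha hb x => by
    have h1 := ha (b • x)
    have h2 := hb x
    have := W.add_mem h1 h2
    rw [mul_smul]
    convert this using 1
    abel
  one_mem' := fun x => by simp
  inv_mem' := fun {a} ha x => by
    have h1 := ha (a⁻¹ • x)
    rw [smul_inv_smul] at h1
    have := W.neg_mem h1
    convert this using 1
    abel

lemma h82_mem_of_sum_eq_zero [Fintype X] [DecidableEq X] [MulAction.IsPretransitive G X]
    (W : Submodule K (X → K)) (hW : h82_mover (G := G) W = ⊤) (v : X → K)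
    (hv : ∑ x, v x = 0) : v ∈ W := by
  rcases isEmpty_or_nonempty X with hX | ⟨⟨x₀⟩⟩
  · have : v = 0 := funext fun x => (hX.false x).elim
    rw [this]
    exact W.zero_mem
  have key : v = ∑ x, v x • (Pi.single x (1 : K) - Pi.single x₀ (1 : K)) := by
    have h1 : ∑ x, v x • (Pi.single x (1 : K) - Pi.single x₀ (1 : K)) =
        ∑ x, Pi.single x (v x) - (∑ x, v x) • Pi.single x₀ (1 : K) := by
      rw [Finset.sum_smul, ← Finset.sum_sub_distrib]
      refine Finset.sum_congr rfl fun x _ => ?_
      rw [smul_sub]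
      congr 1
      funext y
      simp [Pi.single_apply]
    rw [h1, hv, zero_smul, sub_zero, Finset.univ_sum_single]
  rw [key]
  refine W.sum_mem fun x _ => W.smul_mem _ ?_
  obtain ⟨g, rfl⟩ := MulAction.exists_smul_eq G x₀ x
  have hg : g ∈ h82_mover (G := G) W := by rw [hW]; exact Subgroup.mem_top g
  exact hg x₀

lemma h82_single_sub_mem_ker_nm [DecidableEq X] {g : G} {n : ℕ} (hg : ∀ x : X, g ^ n • x = x)
    (x₀ : X) :
    Pi.single (g • x₀) (1 : K) - Pi.single x₀ (1 : K) ∈ LinearMap.ker (h82_nm (X := X) K g n) := by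
  have h1 : h82_tr K g (Pi.single (g • x₀) (1 : K)) = Pi.single x₀ (1 : K) := by
    funext x
    rw [h82_tr_apply]
    simp [Pi.single_apply]
  rw [LinearMap.mem_ker, ← h1, map_sub, h82_nm_tr hg, sub_self]

/-- The linear map whose kernel contains the cocycle data. -/
noncomputable def h82_Lam (K : Type*) [Field K] {G X : Type*} [Group G] [MulAction G X]
    (s t : G) (nt : ℕ) :
    (↥(LinearMap.ker (h82_nm (X := X) K s 2)) × ↥(LinearMap.ker (h82_nm (X := X) K t nt)))
      →ₗ[K] (X → K) :=
  h82_nm K (s * t) 3 ∘ₗ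
    (h82_tr K t ∘ₗ (LinearMap.ker (h82_nm (X := X) K s 2)).subtype ∘ₗ LinearMap.fst K _ _ +
      (LinearMap.ker (h82_nm (X := X) K t nt)).subtype ∘ₗ LinearMap.snd K _ _)

lemma h82_Lam_apply (s t : G) (nt : ℕ)
    (p : ↥(LinearMap.ker (h82_nm (X := X) K s 2)) × ↥(LinearMap.ker (h82_nm (X := X) K t nt))) :
    h82_Lam K s t nt p = h82_nm K (s * t) 3 (h82_tr K t (p.1 : X → K) + (p.2 : X → K)) := rfl

theorem h82_finrank_ker_Lam_le [CharZero K] [Finite X] [MulAction.IsPretransitive G X]
    (s t : G) (hgen : Subgroup.closure {s, t} = ⊤) (nt : ℕ) (hnt : nt ≠ 0)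
    (ht : ∀ x : X, t ^ nt • x = x) (hr : ∀ x : X, (s * t) ^ 3 • x = x) :
    finrank K (LinearMap.ker (h82_Lam (X := X) K s t nt)) + h47_orbCount X s + h47_orbCount X t
      + h47_orbCount X (s * t) ≤ 2 * Nat.card X + 1 := by
  classical
  have := Fintype.ofFinite X
  have hD : finrank K (↥(LinearMap.ker (h82_nm (X := X) K s 2)) ×
      ↥(LinearMap.ker (h82_nm (X := X) K t nt))) =
      finrank K (LinearMap.ker (h82_nm (X := X) K s 2)) +
        finrank K (LinearMap.ker (h82_nm (X := X) K t nt)) := Module.finrank_prod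
  have h1 := h82_finrank_ker_nm_le (K := K) (X := X) s (n := 2) (by norm_num)
  have h2 := h82_finrank_ker_nm_le (K := K) (X := X) t hnt
  have hrk := LinearMap.finrank_range_add_finrank_ker (h82_Lam (X := X) K s t nt)
  have h0 := h82_finrank_fix0 (K := K) (X := X) (s * t)
  have hle : (h82_fix K (s * t) ⊓ LinearMap.ker (h82_sum (X := X) K) : Submodule K (X → K)) ≤
      LinearMap.range (h82_Lam (X := X) K s t nt) := by
    intro c hc
    obtain ⟨hc1, hc2⟩ := Submodule.mem_inf.mp hc
    rw [LinearMap.mem_ker, h82_sum_apply] at hc2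
    set W : Submodule K (X → K) :=
      LinearMap.ker (h82_nm (X := X) K t nt) ⊔ LinearMap.ker (h82_nm (X := X) K (s * t) 3) with hW
    have hmov : h82_mover (G := G) W = ⊤ := by
      have ht' : t ∈ h82_mover (G := G) W := fun x =>
        (le_sup_left : _ ≤ W) (h82_single_sub_mem_ker_nm ht x)
      have hst' : s * t ∈ h82_mover (G := G) W := fun x =>
        (le_sup_right : _ ≤ W) (h82_single_sub_mem_ker_nm hr x)
      have hs' : s ∈ h82_mover (G := G) W := by
        have := (h82_mover (G := G) W).mul_mem hst' ((h82_mover (G := G) W).inv_mem ht')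
        simpa using this
      rw [eq_top_iff, ← hgen, Subgroup.closure_le]
      rintro g (rfl | rfl)
      · exact hs'
      · exact ht'
    have hv : ((3 : K)⁻¹ • c) ∈ W := by
      apply h82_mem_of_sum_eq_zero (G := G) W hmov
      simp only [Pi.smul_apply, smul_eq_mul]
      rw [← Finset.mul_sum, hc2, mul_zero]
    obtain ⟨w, hw, r, hr', hwr⟩ := Submodule.mem_sup.mp hv
    refine ⟨(0, ⟨w, hw⟩), ?_⟩
    rw [h82_Lam_apply]
    simp only [Submodule.coe_zero, map_zero, zero_add]
    have e1 : w = (3 : K)⁻¹ • c - r := by rw [← hwr]; abel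
    rw [e1, map_sub, LinearMap.mem_ker.mp hr', sub_zero, map_smul, h82_nm_of_mem_fix hc1]
    rw [smul_smul]
    norm_num
  have hrange := Submodule.finrank_mono hle
  omega

end LinAlg

end Fermat.Agent.S21
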