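import Mathlib
import Fermat.Prelude.Def_ModularCurve_PeriodMap
import Fermat.Prelude.Def_ModularCurve_GenusNumerics
import Fermat.Agent.S21.h82_ParLin

set_option autoImplicit false

namespace Fermat.Agent.S21

open Module Fermat.Agent.S24

section Cocycle

variable {K : Type*} [Field K] {G : Type*} [Group G] (Γ : Subgroup G)

lemma h82_kap_mem (g : G) (x : G ⧸ Γ) :
    (Quotient.out (g • x))⁻¹ * g * Quotient.out x ∈ Γ := by
  have h : ((Quotient.out (g • x) : G) : G ⧸ Γ) = ((g * Quotient.out x : G) : G ⧸ Γ) := by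
    rw [QuotientGroup.out_eq']
    conv_lhs => rw [← QuotientGroup.out_eq' x]
    rfl
  have := QuotientGroup.eq.mp h
  rwa [← mul_assoc] at this

/-- The element of `Γ` measuring the failure of the section to commute with `g`. -/
noncomputable def h82_kap (g : G) (x : G ⧸ Γ) : Γ :=
  ⟨(Quotient.out (g • x))⁻¹ * g * Quotient.out x, h82_kap_mem Γ g x⟩

lemma h82_kap_mul (g h : G) (x : G ⧸ Γ) :
    h82_kap Γ (g * h) x = h82_kap Γ g (h • x) * h82_kap Γ h x := by
  apply Subtype.ext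
  simp only [h82_kap, Subgroup.coe_mul, mul_smul]
  group

lemma h82_kap_coe_of_smul_eq {g : G} {x : G ⧸ Γ} (hx : g • x = x) :
    (h82_kap Γ g x : G) = (Quotient.out x)⁻¹ * g * Quotient.out x := by
  simp only [h82_kap, hx]

/-- The cocycle attached to an additive character of `Γ`. -/
noncomputable def h82_coc (ψ : Additive Γ →+ K) (g : G) : (G ⧸ Γ) → K :=
  fun x => ψ (Additive.ofMul (h82_kap Γ g x))

lemma h82_coc_mul (ψ : Additive Γ →+ K) (g h : G) (x : G ⧸ Γ) :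
    h82_coc Γ ψ (g * h) x = h82_coc Γ ψ g (h • x) + h82_coc Γ ψ h x := by
  simp only [h82_coc, h82_kap_mul, ofMul_mul, map_add]

lemma h82_coc_one (ψ : Additive Γ →+ K) (x : G ⧸ Γ) : h82_coc Γ ψ 1 x = 0 := by
  have h := h82_coc_mul Γ ψ 1 1 x
  rw [one_mul, one_smul] at h
  exact left_eq_add.mp h

lemma h82_coc_pow (ψ : Additive Γ →+ K) (g : G) (n : ℕ) (x : G ⧸ Γ) :
    h82_coc Γ ψ (g ^ n) x = ∑ k ∈ Finset.range n, h82_coc Γ ψ g (g ^ k • x) := by
  induction n with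
  | zero => simp [h82_coc_one]
  | succ n ih => rw [pow_succ', h82_coc_mul, Finset.sum_range_succ, ih, add_comm]

lemma h82_nm_coc (ψ : Additive Γ →+ K) (g : G) (n : ℕ) :
    h82_nm K g n (h82_coc Γ ψ g) = h82_coc Γ ψ (g ^ n) := by
  funext x
  rw [h82_nm_apply, h82_coc_pow]

/-- The cocycle is linear in the character. -/
noncomputable def h82_cocL (K : Type*) [Field K] {G : Type*} [Group G] (Γ : Subgroup G) (g : G) :
    (Additive Γ →+ K) →ₗ[K] ((G ⧸ Γ) → K) where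
  toFun ψ := h82_coc Γ ψ g
  map_add' ψ ψ' := by
    funext x
    simp [h82_coc]
  map_smul' c ψ := by
    funext x
    simp [h82_coc]

lemma h82_cocL_apply (g : G) (ψ : Additive Γ →+ K) : h82_cocL K Γ g ψ = h82_coc Γ ψ g := rfl

/-- If the cocycle of `ψ` agrees with a coboundary on generators then `ψ = 0`. -/
lemma h82_eq_zero_of_coboundary (ψ : Additive Γ →+ K) (v : (G ⧸ Γ) → K) (s t : G)
    (hgen : Subgroup.closure {s, t} = ⊤)
    (hs : ∀ x, h82_coc Γ ψ s x = v (s • x) - v x)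
    (ht : ∀ x, h82_coc Γ ψ t x = v (t • x) - v x) : ψ = 0 := by
  let H : Subgroup G :=
    { carrier := {g | ∀ x, h82_coc Γ ψ g x = v (g • x) - v x}
      mul_mem' := fun {a b} ha hb x => by
        rw [h82_coc_mul, ha, hb, mul_smul]
        ring
      one_mem' := fun x => by rw [h82_coc_one, one_smul, sub_self]
      inv_mem' := fun {a} ha x => by
        have h1 := h82_coc_mul Γ ψ a⁻¹ a (a⁻¹ • x)
        rw [inv_mul_cancel, h82_coc_one, smul_inv_smul, ha, smul_inv_smul] at h1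
        linear_combination -h1 }
  have hH : H = ⊤ := by
    rw [eq_top_iff, ← hgen, Subgroup.closure_le]
    rintro g (rfl | rfl)
    · exact hs
    · exact ht
  have hall : ∀ g x, h82_coc Γ ψ g x = v (g • x) - v x := fun g => by
    have : g ∈ H := by rw [hH]; exact Subgroup.mem_top g
    exact this
  -- evaluate at the base coset
  set x₀ : G ⧸ Γ := ((1 : G) : G ⧸ Γ) with hx₀
  have hout : Quotient.out x₀ ∈ Γ := by
    have h : ((Quotient.out x₀ : G) : G ⧸ Γ) = ((1 : G) : G ⧸ Γ) := QuotientGroup.out_eq' x₀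
    have := QuotientGroup.eq.mp h
    rw [mul_one] at this
    exact (Subgroup.inv_mem_iff Γ).mp this
  refine AddMonoidHom.ext fun γ' => ?_
  obtain ⟨γ, rfl⟩ : ∃ γ : Γ, Additive.ofMul γ = γ' := ⟨Additive.toMul γ', rfl⟩
  have hfix : (γ : G) • x₀ = x₀ := by
    rw [hx₀, MulAction.Quotient.smul_mk, smul_eq_mul, mul_one]
    exact QuotientGroup.eq.mpr (by simpa using Γ.inv_mem γ.2)
  have h1 := hall (γ : G) x₀
  rw [hfix, sub_self] at h1
  have h2 : h82_kap Γ (γ : G) x₀ = (⟨Quotient.out x₀, hout⟩ : Γ)⁻¹ * γ * ⟨Quotient.out x₀, hout⟩ := by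
    apply Subtype.ext
    rw [h82_kap_coe_of_smul_eq Γ hfix]
    rfl
  rw [h82_coc, h2] at h1
  simp only [ofMul_mul, ofMul_inv, map_add, map_neg] at h1
  rw [AddMonoidHom.zero_apply]
  linear_combination h1

end Cocycle

section Bound

variable {K : Type*} [Field K] {G : Type*} [Group G] (Γ : Subgroup G)

/-- Characters whose cocycle vanishes on the three relator elements. -/
noncomputable def h82_E0 (K : Type*) [Field K] {G : Type*} [Group G] (Γ : Subgroup G)
    (s t : G) (nt : ℕ) : Submodule K (Additive Γ →+ K) :=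
  LinearMap.ker (h82_cocL K Γ (s ^ 2)) ⊓ LinearMap.ker (h82_cocL K Γ (t ^ nt)) ⊓
    LinearMap.ker (h82_cocL K Γ ((s * t) ^ 3))

lemma h82_mem_E0 {s t : G} {nt : ℕ} {ψ : Additive Γ →+ K} :
    ψ ∈ h82_E0 K Γ s t nt ↔ h82_coc Γ ψ (s ^ 2) = 0 ∧ h82_coc Γ ψ (t ^ nt) = 0 ∧
      h82_coc Γ ψ ((s * t) ^ 3) = 0 := by
  simp only [h82_E0, Submodule.mem_inf, LinearMap.mem_ker, h82_cocL_apply, and_assoc]

/-- The cocycle data of a character. -/
noncomputable def h82_Phi (s t : G) (nt : ℕ) :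
    ↥(h82_E0 K Γ s t nt) →ₗ[K]
      (↥(LinearMap.ker (h82_nm (X := G ⧸ Γ) K s 2)) ×
        ↥(LinearMap.ker (h82_nm (X := G ⧸ Γ) K t nt))) :=
  LinearMap.prod
    (LinearMap.codRestrict _ (h82_cocL K Γ s ∘ₗ (h82_E0 K Γ s t nt).subtype) (fun ψ => by
      rw [LinearMap.mem_ker, LinearMap.comp_apply, h82_cocL_apply, h82_nm_coc]
      exact (h82_mem_E0 Γ).mp ψ.2 |>.1))
    (LinearMap.codRestrict _ (h82_cocL K Γ t ∘ₗ (h82_E0 K Γ s t nt).subtype) (fun ψ => by
      rw [LinearMap.mem_ker, LinearMap.comp_apply, h82_cocL_apply, h82_nm_coc]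
      exact (h82_mem_E0 Γ).mp ψ.2 |>.2.1))

lemma h82_Phi_fst (s t : G) (nt : ℕ) (ψ : ↥(h82_E0 K Γ s t nt)) :
    ((h82_Phi Γ s t nt ψ).1 : (G ⧸ Γ) → K) = h82_coc Γ (ψ : Additive Γ →+ K) s := rfl

lemma h82_Phi_snd (s t : G) (nt : ℕ) (ψ : ↥(h82_E0 K Γ s t nt)) :
    ((h82_Phi Γ s t nt ψ).2 : (G ⧸ Γ) → K) = h82_coc Γ (ψ : Additive Γ →+ K) t := rfl

/-- The coboundary data of a function. -/
noncomputable def h82_Cob (K : Type*) [Field K] {G : Type*} [Group G] (Γ : Subgroup G)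
    (s t : G) (nt : ℕ) (hs : ∀ x : G ⧸ Γ, s ^ 2 • x = x)
    (ht : ∀ x : G ⧸ Γ, t ^ nt • x = x) :
    ((G ⧸ Γ) → K) →ₗ[K]
      (↥(LinearMap.ker (h82_nm (X := G ⧸ Γ) K s 2)) ×
        ↥(LinearMap.ker (h82_nm (X := G ⧸ Γ) K t nt))) :=
  LinearMap.prod
    (LinearMap.codRestrict _ (h82_tr K s - LinearMap.id) (fun v => by
      rw [LinearMap.mem_ker, LinearMap.sub_apply, map_sub, h82_nm_tr hs, LinearMap.id_apply,
        sub_self]))
    (LinearMap.codRestrict _ (h82_tr K t - LinearMap.id) (fun v => by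
      rw [LinearMap.mem_ker, LinearMap.sub_apply, map_sub, h82_nm_tr ht, LinearMap.id_apply,
        sub_self]))

lemma h82_Cob_fst (s t : G) (nt : ℕ) (hs : ∀ x : G ⧸ Γ, s ^ 2 • x = x)
    (ht : ∀ x : G ⧸ Γ, t ^ nt • x = x) (v : (G ⧸ Γ) → K) :
    ((h82_Cob K Γ s t nt hs ht v).1 : (G ⧸ Γ) → K) = h82_tr K s v - v := rfl

lemma h82_Cob_snd (s t : G) (nt : ℕ) (hs : ∀ x : G ⧸ Γ, s ^ 2 • x = x)
    (ht : ∀ x : G ⧸ Γ, t ^ nt • x = x) (v : (G ⧸ Γ) → K) :
    ((h82_Cob K Γ s t nt hs ht v).2 : (G ⧸ Γ) → K) = h82_tr K t v - v := rfl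

lemma h82_tr_tr (s t : G) (v : (G ⧸ Γ) → K) :
    h82_tr K t (h82_tr K s v) = h82_tr K (s * t) v := by
  funext x
  simp only [h82_tr_apply, mul_smul]

theorem h82_finrank_E0_le [CharZero K] [Finite (G ⧸ Γ)] (s t : G)
    (hgen : Subgroup.closure {s, t} = ⊤) (nt : ℕ)
    (hs : ∀ x : G ⧸ Γ, s ^ 2 • x = x) (ht : ∀ x : G ⧸ Γ, t ^ nt • x = x)
    (hr : ∀ x : G ⧸ Γ, (s * t) ^ 3 • x = x) :
    Module.Finite K (h82_E0 K Γ s t nt) ∧
      finrank K (h82_E0 K Γ s t nt) + Nat.card (G ⧸ Γ) ≤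
        finrank K (LinearMap.ker (h82_Lam (X := G ⧸ Γ) K s t nt)) + 1 := by
  classical
  have := Fintype.ofFinite (G ⧸ Γ)
  have hΦinj : Function.Injective (h82_Phi (K := K) Γ s t nt) := by
    rw [injective_iff_map_eq_zero]
    intro ψ hψ
    have h1 : h82_coc Γ (ψ : Additive Γ →+ K) s = 0 := by
      rw [← h82_Phi_fst, hψ]; rfl
    have h2 : h82_coc Γ (ψ : Additive Γ →+ K) t = 0 := by
      rw [← h82_Phi_snd, hψ]; rfl
    apply Subtype.ext
    exact h82_eq_zero_of_coboundary Γ (ψ : Additive Γ →+ K) 0 s t hgen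
      (fun x => by rw [h1]; simp) (fun x => by rw [h2]; simp)
  have hfin : Module.Finite K (h82_E0 K Γ s t nt) :=
    Module.Finite.of_injective (h82_Phi (K := K) Γ s t nt) hΦinj
  refine ⟨hfin, ?_⟩
  set Ψ : (↥(h82_E0 K Γ s t nt) × ((G ⧸ Γ) → K)) →ₗ[K]
      (↥(LinearMap.ker (h82_nm (X := G ⧸ Γ) K s 2)) ×
        ↥(LinearMap.ker (h82_nm (X := G ⧸ Γ) K t nt))) :=
    (h82_Phi (K := K) Γ s t nt).coprod (h82_Cob K Γ s t nt hs ht) with hΨ
  -- the range lies in the kernel of `h82_Lam`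
  have hrange : LinearMap.range Ψ ≤ LinearMap.ker (h82_Lam (X := G ⧸ Γ) K s t nt) := by
    rintro _ ⟨⟨ψ, v⟩, rfl⟩
    rw [LinearMap.mem_ker, hΨ, LinearMap.coprod_apply, map_add]
    have e1 : h82_Lam (X := G ⧸ Γ) K s t nt (h82_Phi Γ s t nt ψ) = 0 := by
      rw [h82_Lam_apply, h82_Phi_fst, h82_Phi_snd]
      have : h82_tr K t (h82_coc Γ (ψ : Additive Γ →+ K) s) + h82_coc Γ (ψ : Additive Γ →+ K) t =
          h82_coc Γ (ψ : Additive Γ →+ K) (s * t) := by
        funext x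
        rw [Pi.add_apply, h82_tr_apply, h82_coc_mul]
      rw [this, h82_nm_coc]
      exact (h82_mem_E0 Γ).mp ψ.2 |>.2.2
    have e2 : h82_Lam (X := G ⧸ Γ) K s t nt (h82_Cob K Γ s t nt hs ht v) = 0 := by
      rw [h82_Lam_apply, h82_Cob_fst, h82_Cob_snd]
      have : h82_tr K t (h82_tr K s v - v) + (h82_tr K t v - v) = h82_tr K (s * t) v - v := by
        rw [map_sub, h82_tr_tr]
        abel
      rw [this, map_sub, h82_nm_tr hr, sub_self]
    rw [e1, e2, add_zero]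
  -- the kernel is at most one dimensional
  have hker : finrank K (LinearMap.ker Ψ) ≤ 1 := by
    let ι : K →ₗ[K] (↥(h82_E0 K Γ s t nt) × ((G ⧸ Γ) → K)) :=
      LinearMap.inr K _ _ ∘ₗ LinearMap.pi (fun _ => LinearMap.id)
    have hle : LinearMap.ker Ψ ≤ LinearMap.range ι := by
      rintro ⟨ψ, v⟩ hk
      rw [LinearMap.mem_ker, hΨ, LinearMap.coprod_apply] at hk
      have k1 : h82_coc Γ (ψ : Additive Γ →+ K) s + (h82_tr K s v - v) = 0 := by
        have := congrArg (fun p => (p.1 : (G ⧸ Γ) → K)) hk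
        simpa [h82_Phi_fst, h82_Cob_fst] using this
      have k2 : h82_coc Γ (ψ : Additive Γ →+ K) t + (h82_tr K t v - v) = 0 := by
        have := congrArg (fun p => (p.2 : (G ⧸ Γ) → K)) hk
        simpa [h82_Phi_snd, h82_Cob_snd] using this
      have hψ0 : (ψ : Additive Γ →+ K) = 0 := by
        refine h82_eq_zero_of_coboundary Γ (ψ : Additive Γ →+ K) (-v) s t hgen ?_ ?_
        · intro x
          have := congrFun k1 x
          simp only [Pi.add_apply, Pi.sub_apply, h82_tr_apply, Pi.zero_apply] at this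
          simp only [Pi.neg_apply]
          linear_combination this
        · intro x
          have := congrFun k2 x
          simp only [Pi.add_apply, Pi.sub_apply, h82_tr_apply, Pi.zero_apply] at this
          simp only [Pi.neg_apply]
          linear_combination this
      have hc0 : ∀ g, h82_coc Γ (ψ : Additive Γ →+ K) g = 0 := by
        intro g
        funext x
        rw [hψ0]
        simp [h82_coc]
      rw [hc0, zero_add] at k1 k2
      -- `v` is invariant under `s` and `t`, hence constant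
      let H : Subgroup G :=
        { carrier := {g | ∀ x, v (g • x) = v x}
          mul_mem' := fun {a b} ha hb x => by rw [mul_smul, ha, hb]
          one_mem' := fun x => by rw [one_smul]
          inv_mem' := fun {a} ha x => by
            have := ha (a⁻¹ • x)
            rw [smul_inv_smul] at this
            exact this.symm }
      have hH : H = ⊤ := by
        rw [eq_top_iff, ← hgen, Subgroup.closure_le]
        rintro g (rfl | rfl)
        · intro x
          have := congrFun k1 x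
          simp only [Pi.sub_apply, h82_tr_apply, Pi.zero_apply] at this
          exact sub_eq_zero.mp this
        · intro x
          have := congrFun k2 x
          simp only [Pi.sub_apply, h82_tr_apply, Pi.zero_apply] at this
          exact sub_eq_zero.mp this
      refine ⟨v ((1 : G) : G ⧸ Γ), ?_⟩
      refine Prod.ext ?_ ?_
      · apply Subtype.ext
        simp [ι, hψ0]
      · funext x
        obtain ⟨g, rfl⟩ := MulAction.exists_smul_eq G (((1 : G) : G ⧸ Γ)) x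
        have hg : g ∈ H := by rw [hH]; exact Subgroup.mem_top g
        simp only [ι, LinearMap.coe_comp, Function.comp_apply, LinearMap.inr_apply,
          LinearMap.pi_apply, LinearMap.id_apply]
        exact (hg _).symm
    calc finrank K (LinearMap.ker Ψ) ≤ finrank K (LinearMap.range ι) := Submodule.finrank_mono hle
      _ ≤ finrank K K := LinearMap.finrank_range_le ι
      _ = 1 := Module.finrank_self K
  have h1 := LinearMap.finrank_range_add_finrank_ker (K := K)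
    (V := ↥(h82_E0 K Γ s t nt) × ((G ⧸ Γ) → K)) Ψ
  have h2 := Submodule.finrank_mono hrange
  have h3 : finrank K (↥(h82_E0 K Γ s t nt) × ((G ⧸ Γ) → K)) =
      finrank K (h82_E0 K Γ s t nt) + Fintype.card (G ⧸ Γ) := by
    haveI : Module.Free K ↥(h82_E0 K Γ s t nt) :=
      Module.Free.of_divisionRing K ↥(h82_E0 K Γ s t nt)
    rw [Module.finrank_prod, Module.finrank_fintype_fun_eq_card]
  rw [Nat.card_eq_fintype_card]
  omega

end Bound

section SL2

open scoped MatrixGroups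
open ModularGroup

variable (Γ : Subgroup SL(2, ℤ))

lemma h82_neg_one_smul (hneg : (-1 : SL(2, ℤ)) ∈ Γ) (x : SL(2, ℤ) ⧸ Γ) :
    (-1 : SL(2, ℤ)) • x = x := by
  induction x using QuotientGroup.induction_on with
  | H g =>
    rw [MulAction.Quotient.smul_mk, smul_eq_mul]
    apply QuotientGroup.eq.mpr
    have h : ((-1 : SL(2, ℤ)) * g)⁻¹ * g = -1 := by
      rw [neg_one_mul, inv_neg, neg_mul, inv_mul_cancel]
    rw [h]
    exact hneg

lemma h82_S_sq : (S : SL(2, ℤ)) ^ 2 = -1 := by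
  ext i j
  fin_cases i <;> fin_cases j <;>
    simp [pow_succ, ModularGroup.coe_S, Matrix.mul_apply, Fin.sum_univ_two]

lemma h82_ST_cube : ((S : SL(2, ℤ)) * T) ^ 3 = -1 := by
  ext i j
  fin_cases i <;> fin_cases j <;>
    simp [pow_succ, ModularGroup.coe_S, ModularGroup.coe_T, Matrix.mul_apply, Fin.sum_univ_two]

lemma h82_trace_conj (a g : SL(2, ℤ)) :
    ((a⁻¹ * g * a : SL(2, ℤ)) : Matrix (Fin 2) (Fin 2) ℤ).trace =
      (g : Matrix (Fin 2) (Fin 2) ℤ).trace := by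
  rw [Matrix.SpecialLinearGroup.coe_mul, Matrix.trace_mul_comm,
    ← Matrix.SpecialLinearGroup.coe_mul, ← mul_assoc, mul_inv_cancel, one_mul]

lemma h82_trace_neg_one :
    ((-1 : SL(2, ℤ)) : Matrix (Fin 2) (Fin 2) ℤ).trace ^ 2 = 4 := by
  simp [Matrix.trace_fin_two]

lemma h82_trace_T_pow (n : ℕ) :
    ((T ^ n : SL(2, ℤ)) : Matrix (Fin 2) (Fin 2) ℤ).trace ^ 2 = 4 := by
  have h := ModularGroup.coe_T_zpow (n : ℤ)
  rw [zpow_natCast] at h
  rw [h]
  simp [Matrix.trace_fin_two]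

/-- The cocycle of a parabolic character vanishes on elements of square trace four that act
trivially. -/
lemma h82_coc_eq_zero_of_parabolic {ψ : Additive Γ →+ ℂ}
    (hψ : ModularCurve.Period.IsParabolicHom Γ ψ) (g : SL(2, ℤ))
    (hg : ∀ x : SL(2, ℤ) ⧸ Γ, g • x = x)
    (htr : (g : Matrix (Fin 2) (Fin 2) ℤ).trace ^ 2 = 4) : h82_coc Γ ψ g = 0 := by
  funext x
  rw [h82_coc, Pi.zero_apply]
  apply hψ
  rw [h82_kap_coe_of_smul_eq Γ (hg x), h82_trace_conj]
  exact htr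

theorem h82_finrank_parabolicHoms_le_of [Finite (SL(2, ℤ) ⧸ Γ)]
    (hneg : (-1 : SL(2, ℤ)) ∈ Γ) :
    Module.Finite ℂ (ModularCurve.Period.parabolicHoms ℂ Γ ℂ) ∧
      Module.finrank ℂ (ModularCurve.Period.parabolicHoms ℂ Γ ℂ)
        + h47_orbCount (SL(2, ℤ) ⧸ Γ) S + h47_orbCount (SL(2, ℤ) ⧸ Γ) (S * T)
        + h47_orbCount (SL(2, ℤ) ⧸ Γ) T ≤ Nat.card (SL(2, ℤ) ⧸ Γ) + 2 := by
  classical
  -- a common period of `T`
  obtain ⟨nt, hnt, ht⟩ : ∃ nt : ℕ, nt ≠ 0 ∧ ∀ x : SL(2, ℤ) ⧸ Γ, (T : SL(2, ℤ)) ^ nt • x = x := by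
    let σ : Equiv.Perm (SL(2, ℤ) ⧸ Γ) := MulAction.toPermHom SL(2, ℤ) (SL(2, ℤ) ⧸ Γ) T
    have hfin : IsOfFinOrder σ := isOfFinOrder_of_finite σ
    refine ⟨orderOf σ, hfin.orderOf_pos.ne', fun x => ?_⟩
    have h1 : σ ^ orderOf σ = 1 := pow_orderOf_eq_one σ
    have h2 : (MulAction.toPermHom SL(2, ℤ) (SL(2, ℤ) ⧸ Γ) (T ^ orderOf σ)) x = x := by
      rw [map_pow, h1]
      rfl
    exact h2
  have hs : ∀ x : SL(2, ℤ) ⧸ Γ, (S : SL(2, ℤ)) ^ 2 • x = x := fun x => by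
    rw [h82_S_sq]; exact h82_neg_one_smul Γ hneg x
  have hr : ∀ x : SL(2, ℤ) ⧸ Γ, ((S : SL(2, ℤ)) * T) ^ 3 • x = x := fun x => by
    rw [h82_ST_cube]; exact h82_neg_one_smul Γ hneg x
  have hgen : Subgroup.closure {(S : SL(2, ℤ)), T} = ⊤ :=
    SpecialLinearGroup.SL2Z_generators
  obtain ⟨hfin, hE⟩ := h82_finrank_E0_le (K := ℂ) Γ S T hgen nt hs ht hr
  have hL := h82_finrank_ker_Lam_le (K := ℂ) (X := SL(2, ℤ) ⧸ Γ) S T hgen nt hnt ht hr
  have hle : ModularCurve.Period.parabolicHoms ℂ Γ ℂ ≤ h82_E0 ℂ Γ S T nt := by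
    intro ψ hψ
    rw [ModularCurve.Period.mem_parabolicHoms_iff] at hψ
    rw [h82_mem_E0]
    refine ⟨?_, ?_, ?_⟩
    · exact h82_coc_eq_zero_of_parabolic Γ hψ _ hs (by rw [h82_S_sq]; exact h82_trace_neg_one)
    · exact h82_coc_eq_zero_of_parabolic Γ hψ _ ht (h82_trace_T_pow nt)
    · exact h82_coc_eq_zero_of_parabolic Γ hψ _ hr (by rw [h82_ST_cube]; exact h82_trace_neg_one)
  have hfin' : Module.Finite ℂ (ModularCurve.Period.parabolicHoms ℂ Γ ℂ) :=
    Submodule.finiteDimensional_of_le hle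
  refine ⟨hfin', ?_⟩
  have hmono := Submodule.finrank_mono hle
  omega

end SL2

section Gamma0

open scoped MatrixGroups
open ModularGroup

/-- Upper bound for the dimension of the space of parabolic characters of `Γ₀(N)`, in terms of
the orbit counts of `S`, `S * T`, `T` on the coset space. -/
theorem h82_finrank_parabolicHoms_le (N : ℕ) [NeZero N] :
    Module.Finite ℂ (ModularCurve.Period.parabolicHoms ℂ (CongruenceSubgroup.Gamma0 N) ℂ) ∧
      Module.finrank ℂ (ModularCurve.Period.parabolicHoms ℂ (CongruenceSubgroup.Gamma0 N) ℂ)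
        + h47_orbCount (SL(2, ℤ) ⧸ CongruenceSubgroup.Gamma0 N) S
        + h47_orbCount (SL(2, ℤ) ⧸ CongruenceSubgroup.Gamma0 N) (S * T)
        + h47_orbCount (SL(2, ℤ) ⧸ CongruenceSubgroup.Gamma0 N) T
        ≤ Nat.card (SL(2, ℤ) ⧸ CongruenceSubgroup.Gamma0 N) + 2 := by
  haveI : Finite (SL(2, ℤ) ⧸ CongruenceSubgroup.Gamma0 N) :=
    Subgroup.finite_quotient_of_finiteIndex
  refine h82_finrank_parabolicHoms_le_of (CongruenceSubgroup.Gamma0 N) ?_
  rw [CongruenceSubgroup.Gamma0_mem]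
  simp

/-- The same bound in terms of the genus formula, given the four coset counts. -/
theorem h82_finrank_parabolicHoms_le_genus (N : ℕ) [NeZero N]
    (hn : Nat.card (SL(2, ℤ) ⧸ CongruenceSubgroup.Gamma0 N) = ModularCurve.dedekindPsi N)
    (h2 : 2 * h47_orbCount (SL(2, ℤ) ⧸ CongruenceSubgroup.Gamma0 N) S =
      Nat.card (SL(2, ℤ) ⧸ CongruenceSubgroup.Gamma0 N) + ModularCurve.nuTwo N)
    (h3 : 3 * h47_orbCount (SL(2, ℤ) ⧸ CongruenceSubgroup.Gamma0 N) (S * T) =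
      Nat.card (SL(2, ℤ) ⧸ CongruenceSubgroup.Gamma0 N) + 2 * ModularCurve.nuThree N)
    (hT : h47_orbCount (SL(2, ℤ) ⧸ CongruenceSubgroup.Gamma0 N) T = ModularCurve.cuspCount N) :
    Module.Finite ℂ (ModularCurve.Period.parabolicHoms ℂ (CongruenceSubgroup.Gamma0 N) ℂ) ∧
      (Module.finrank ℂ (ModularCurve.Period.parabolicHoms ℂ (CongruenceSubgroup.Gamma0 N) ℂ) : ℚ)
        ≤ 2 * ModularCurve.genusFormula N := by
  obtain ⟨hfin, hle⟩ := h82_finrank_parabolicHoms_le N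
  refine ⟨hfin, ?_⟩
  have hle' : ((Module.finrank ℂ
      (ModularCurve.Period.parabolicHoms ℂ (CongruenceSubgroup.Gamma0 N) ℂ) : ℕ) : ℚ)
        + (h47_orbCount (SL(2, ℤ) ⧸ CongruenceSubgroup.Gamma0 N) S : ℚ)
        + (h47_orbCount (SL(2, ℤ) ⧸ CongruenceSubgroup.Gamma0 N) (S * T) : ℚ)
        + (h47_orbCount (SL(2, ℤ) ⧸ CongruenceSubgroup.Gamma0 N) T : ℚ)
        ≤ (Nat.card (SL(2, ℤ) ⧸ CongruenceSubgroup.Gamma0 N) : ℚ) + 2 := by
    exact_mod_cast hle
  have h2' : (2 : ℚ) * (h47_orbCount (SL(2, ℤ) ⧸ CongruenceSubgroup.Gamma0 N) S : ℚ) =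
      (Nat.card (SL(2, ℤ) ⧸ CongruenceSubgroup.Gamma0 N) : ℚ) + (ModularCurve.nuTwo N : ℚ) := by
    exact_mod_cast h2
  have h3' : (3 : ℚ) * (h47_orbCount (SL(2, ℤ) ⧸ CongruenceSubgroup.Gamma0 N) (S * T) : ℚ) =
      (Nat.card (SL(2, ℤ) ⧸ CongruenceSubgroup.Gamma0 N) : ℚ) +
        2 * (ModularCurve.nuThree N : ℚ) := by
    exact_mod_cast h3
  have hT' : (h47_orbCount (SL(2, ℤ) ⧸ CongruenceSubgroup.Gamma0 N) T : ℚ) =
      (ModularCurve.cuspCount N : ℚ) := by
    exact_mod_cast hT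
  have hn' : (Nat.card (SL(2, ℤ) ⧸ CongruenceSubgroup.Gamma0 N) : ℚ) = (ModularCurve.dedekindPsi N : ℚ) := by
    exact_mod_cast hn
  rw [ModularCurve.genusFormula]
  linarith

end Gamma0

end Fermat.Agent.S21
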