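import Fermat.Agent.S21.h20_Inj
import Fermat.Agent.S21.h58_Inj
import Fermat.Agent.S21.h58_Asm
import Fermat.Agent.S21.h82_ParBound
import Fermat.Agent.S24.h29_Index
import Fermat.Agent.S24.h29_Elliptic
import Fermat.Agent.S24.h33_Cusps

set_option autoImplicit false
set_option linter.style.haveILetI false

namespace Fermat.Agent.S21

open UpperHalfPlane ModularCurve ModularCurve.Period CongruenceSubgroup
open Fermat.Agent.S24
open scoped MatrixGroups

/-- The maximum principle in the packaged form used by the injectivity reduction. -/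
theorem h20_MPStatement (Γ : Subgroup SL(2, ℤ)) [Γ.FiniteIndex] : h58_MPStatement Γ :=
  fun E hE M hM hinv hper hbdd => h20_const_of_norm_invariant Γ E hE M hM hinv hper hbdd

/-- **Eichler–Shimura injectivity**, unconditionally. -/
theorem h20_periodHomPair_injective_uncond (N : ℕ) [NeZero N] :
    Function.Injective (periodHomPair N) :=
  h58_periodHomPair_injective_of_MP (h20_MPStatement (Gamma0 N))

/-- `2 * dim S₂(Γ₀(N)) ≤ dim Hom_par(Γ₀(N), ℂ)`, unconditionally. -/
theorem h20_two_mul_finrank_le (N : ℕ) [NeZero N] :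
    2 * Module.finrank ℂ (CuspForm (Gamma0 N) 2)
      ≤ Module.finrank ℂ (parabolicHoms ℂ (Gamma0 N) ℂ) := by
  haveI := (h82_finrank_parabolicHoms_le N).1
  exact h58_two_mul_finrank_le (h20_periodHomPair_injective_uncond N)

/-- The space of weight two cusp forms is finite-dimensional. -/
theorem h20_finite_cuspForm (N : ℕ) [NeZero N] :
    Module.Finite ℂ (CuspForm (Gamma0 N) 2) := by
  haveI := (h82_finrank_parabolicHoms_le N).1
  exact h58_finite_cuspForm (h20_periodHomPair_injective_uncond N)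

/-- The upper bound `dim S₂(Γ₀(N)) ≤ g`, given the four orbit counts. -/
theorem h20_finrank_cuspForm_le_genus (N : ℕ) [NeZero N]
    (hn : Nat.card (SL(2, ℤ) ⧸ Gamma0 N) = dedekindPsi N)
    (h2 : 2 * h47_orbCount (SL(2, ℤ) ⧸ Gamma0 N) ModularGroup.S =
      Nat.card (SL(2, ℤ) ⧸ Gamma0 N) + nuTwo N)
    (h3 : 3 * h47_orbCount (SL(2, ℤ) ⧸ Gamma0 N) (ModularGroup.S * ModularGroup.T) =
      Nat.card (SL(2, ℤ) ⧸ Gamma0 N) + 2 * nuThree N)
    (hT : h47_orbCount (SL(2, ℤ) ⧸ Gamma0 N) ModularGroup.T = cuspCount N) :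
    (Module.finrank ℂ (CuspForm (Gamma0 N) 2) : ℚ) ≤ genusFormula N := by
  obtain ⟨-, hle⟩ := h82_finrank_parabolicHoms_le_genus N hn h2 h3 hT
  have h := h20_two_mul_finrank_le N
  have h' : (2 : ℚ) * (Module.finrank ℂ (CuspForm (Gamma0 N) 2) : ℚ) ≤
      (Module.finrank ℂ (parabolicHoms ℂ (Gamma0 N) ℂ) : ℚ) := by
    exact_mod_cast h
  linarith

/-- **Both frozen statements S20 and S21** from the four orbit counts and the lower bound
`g ≤ dim S₂(Γ₀(N))`. -/
theorem h20_S20_S21_of_counts_of_le (N : ℕ) [NeZero N]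
    (hn : Nat.card (SL(2, ℤ) ⧸ Gamma0 N) = dedekindPsi N)
    (h2 : 2 * h47_orbCount (SL(2, ℤ) ⧸ Gamma0 N) ModularGroup.S =
      Nat.card (SL(2, ℤ) ⧸ Gamma0 N) + nuTwo N)
    (h3 : 3 * h47_orbCount (SL(2, ℤ) ⧸ Gamma0 N) (ModularGroup.S * ModularGroup.T) =
      Nat.card (SL(2, ℤ) ⧸ Gamma0 N) + 2 * nuThree N)
    (hT : h47_orbCount (SL(2, ℤ) ⧸ Gamma0 N) ModularGroup.T = cuspCount N)
    (hlow : genusFormula N ≤ (Module.finrank ℂ (CuspForm (Gamma0 N) 2) : ℚ)) :
    ((Module.finrank ℂ (CuspForm (Gamma0 N) 2) : ℚ) = genusFormula N) ∧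
      (Function.Injective (periodHomPair N) ∧
        LinearMap.range (periodHomPair N) = parabolicHoms ℂ (Gamma0 N) ℂ) := by
  obtain ⟨hfin, hle⟩ := h82_finrank_parabolicHoms_le_genus N hn h2 h3 hT
  refine ⟨le_antisymm (h20_finrank_cuspForm_le_genus N hn h2 h3 hT) hlow, ?_⟩
  haveI := hfin
  refine h58_S21_of_finrank (h20_periodHomPair_injective_uncond N) ?_
  have h' : (Module.finrank ℂ (parabolicHoms ℂ (Gamma0 N) ℂ) : ℚ) ≤
      2 * (Module.finrank ℂ (CuspForm (Gamma0 N) 2) : ℚ) := by linarith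
  exact_mod_cast h'

/-- **Upper bound of the dimension formula**, unconditionally:
`dim S₂(Γ₀(N)) ≤ genusFormula N`. -/
theorem h20_finrank_cuspForm_le_genusFormula (N : ℕ) [NeZero N] :
    (Module.finrank ℂ (CuspForm (Gamma0 N) 2) : ℚ) ≤ genusFormula N :=
  h20_finrank_cuspForm_le_genus N (h29_card_quotient_Gamma0 N) (h29_orbits_S N)
    (h29_orbits_ST N) (h33_orbits_T N)

/-- **Both frozen statements S20 and S21 from the lower bound** `g ≤ dim S₂(Γ₀(N))` alone. -/
theorem h20_S20_S21_of_le (N : ℕ) [NeZero N]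
    (hlow : genusFormula N ≤ (Module.finrank ℂ (CuspForm (Gamma0 N) 2) : ℚ)) :
    ((Module.finrank ℂ (CuspForm (Gamma0 N) 2) : ℚ) = genusFormula N) ∧
      (Function.Injective (periodHomPair N) ∧
        LinearMap.range (periodHomPair N) = parabolicHoms ℂ (Gamma0 N) ℂ) :=
  h20_S20_S21_of_counts_of_le N (h29_card_quotient_Gamma0 N) (h29_orbits_S N)
    (h29_orbits_ST N) (h33_orbits_T N) hlow

end Fermat.Agent.S21
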