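import Mathlib
import Fermat.Agent.S21.h82_ParBound
import Fermat.Agent.S21.h58_Asm
import Fermat.Agent.S21.h58_Prim
import Fermat.Agent.S21.h20_Inj
import Fermat.Agent.S24.h29_Index
import Fermat.Agent.S24.h29_Elliptic
import Fermat.Agent.S24.h33_Cusps

/-!
# S20 upper bound and S21 from the lower bound (assembly, helper82)

Everything here is unconditional except the two `_of_lower` statements, which take the
lower bound `genusFormula N ≤ dim S₂(Γ₀(N))` as their only hypothesis.
-/

set_option autoImplicit false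

open Fermat.Agent.S24

namespace Fermat.Agent.S21

/-- **(G), unconditional**: `dim Hom_par(Γ₀(N), ℂ) ≤ 2 g`. -/
theorem h82_finrank_parabolicHoms_le_two_genus (N : ℕ) [NeZero N] :
    Module.Finite ℂ (ModularCurve.Period.parabolicHoms ℂ (CongruenceSubgroup.Gamma0 N) ℂ) ∧
      (Module.finrank ℂ
          (ModularCurve.Period.parabolicHoms ℂ (CongruenceSubgroup.Gamma0 N) ℂ) : ℚ)
        ≤ 2 * ModularCurve.genusFormula N :=
  h82_finrank_parabolicHoms_le_genus N (h29_card_quotient_Gamma0 N) (h29_orbits_S N)
    (h29_orbits_ST N) (h33_orbits_T N)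

/-- Injectivity of the period pairing (helper20's (H4) fed with helper58's (H1), (H2)). -/
theorem h82_periodHomPair_injective (N : ℕ) [NeZero N] :
    Function.Injective (ModularCurve.periodHomPair N) :=
  h20_periodHomPair_injective N (h58_existsPeriodMapLinear N)
    (fun f => h58_hasEquivariantPrimitive f)

/-- `S₂(Γ₀(N))` is finite-dimensional. -/
theorem h82_finite_cuspForm_two (N : ℕ) [NeZero N] :
    Module.Finite ℂ (CuspForm (CongruenceSubgroup.Gamma0 N) 2) := by
  have := (h82_finrank_parabolicHoms_le_two_genus N).1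
  exact h58_finite_cuspForm (h82_periodHomPair_injective N)

/-- **UPPER**: `dim S₂(Γ₀(N)) ≤ g`. -/
theorem h82_finrank_cuspForm_two_le (N : ℕ) [NeZero N] :
    (Module.finrank ℂ (CuspForm (CongruenceSubgroup.Gamma0 N) 2) : ℚ)
      ≤ ModularCurve.genusFormula N := by
  obtain ⟨hfin, hle⟩ := h82_finrank_parabolicHoms_le_two_genus N
  have := hfin
  have h2 := h58_two_mul_finrank_le (h82_periodHomPair_injective N)
  have h2' : (2 * Module.finrank ℂ (CuspForm (CongruenceSubgroup.Gamma0 N) 2) : ℚ)
      ≤ (Module.finrank ℂ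
          (ModularCurve.Period.parabolicHoms ℂ (CongruenceSubgroup.Gamma0 N) ℂ) : ℚ) := by
    exact_mod_cast h2
  linarith

/-- **S20 from the lower bound.** -/
theorem h82_S20_of_lower (N : ℕ) [NeZero N]
    (hlow : ModularCurve.genusFormula N
      ≤ (Module.finrank ℂ (CuspForm (CongruenceSubgroup.Gamma0 N) 2) : ℚ)) :
    (Module.finrank ℂ (CuspForm (CongruenceSubgroup.Gamma0 N) 2) : ℚ)
      = ModularCurve.genusFormula N :=
  le_antisymm (h82_finrank_cuspForm_two_le N) hlow

/-- **S21 from the lower bound** (the frozen S21 statement, with the lower bound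
`g ≤ dim S₂(Γ₀(N))` as its only hypothesis). -/
theorem h82_S21_of_lower (N : ℕ) [NeZero N]
    (hlow : ModularCurve.genusFormula N
      ≤ (Module.finrank ℂ (CuspForm (CongruenceSubgroup.Gamma0 N) 2) : ℚ)) :
    Function.Injective (ModularCurve.periodHomPair N)
      ∧ LinearMap.range (ModularCurve.periodHomPair N)
          = ModularCurve.Period.parabolicHoms ℂ (CongruenceSubgroup.Gamma0 N) ℂ := by
  obtain ⟨hfin, hle⟩ := h82_finrank_parabolicHoms_le_two_genus N
  have := hfin
  refine h58_S21_of_finrank (h82_periodHomPair_injective N) ?_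
  have h3 : (Module.finrank ℂ
      (ModularCurve.Period.parabolicHoms ℂ (CongruenceSubgroup.Gamma0 N) ℂ) : ℚ)
      ≤ (2 * Module.finrank ℂ (CuspForm (CongruenceSubgroup.Gamma0 N) 2) : ℚ) := by
    linarith
  exact_mod_cast h3

end Fermat.Agent.S21
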